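import Fermat.Prelude.Def_ModularForm_EisensteinChiNegThree
import Fermat.Prelude.Def_FLTPrelim_Modularity
import Fermat.Agent.Eisenstein.QSeries
import Fermat.Agent.WeightOne.Translation
import Fermat.Agent.WeightOne.CoeffSq

/-!
# Weight one forms with character `χ₋₃` and sums of their translates

If `q² ∣ M` and `3q ∣ M`, a combination of the translates `f(z + j/q)` whose coefficients only
depend on `j` up to squares of units is again such a form. This gives both the removal of the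
coefficients at multiples of `q` and the twist by `χ₋₃`.
-/

set_option autoImplicit false

noncomputable section

open CongruenceSubgroup Matrix.SpecialLinearGroup EisensteinWeightOne UpperHalfPlane ModularFormClass
open Fermat.Agent.Eisenstein (HasQ)
open Fermat.Agent.WeightOne (transGL)
open scoped MatrixGroups ModularForm Real

namespace Fermat.Agent.LT.Final

/-- `χ₋₃` of an integer. -/
def chiInt (d : ℤ) : ℤ := chiNegThree (d : ZMod 3).val

/-- `chiInt` extends `χ₋₃`. -/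
theorem chiInt_natCast (n : ℕ) : chiInt n = chiNegThree n := by
  simp [chiInt, ZMod.val_natCast, chiNegThree]

/-- `chiInt` depends only on the residue modulo `3`. -/
theorem chiInt_congr {a b : ℤ} (h : (a : ZMod 3) = (b : ZMod 3)) : chiInt a = chiInt b := by
  rw [chiInt, chiInt, h]

/-- Weight one invariance under `Γ₀(M)` with character `χ₋₃`. -/
def IsChiInvariant (M : ℕ) (f : ℍ → ℂ) : Prop :=
  ∀ γ : SL(2, ℤ), γ ∈ Gamma0 M → f ∣[(1 : ℤ)] γ = (chiInt (γ 1 1) : ℂ) • f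

/-- A `χ₋₃`-invariant form of level divisible by `3` is invariant under `Γ₁`. -/
theorem slash_eq_of_mem_Gamma1 {M : ℕ} {f : ℍ → ℂ} (hf : IsChiInvariant M f) (h3 : 3 ∣ M)
    {γ : SL(2, ℤ)} (hγ : γ ∈ Gamma1 M) : f ∣[(1 : ℤ)] γ = f := by
  obtain ⟨-, h11, -⟩ := (Gamma1_mem M γ).mp hγ
  rw [hf γ (Gamma1_in_Gamma0 M hγ)]
  have h : ((γ 1 1 : ℤ) : ZMod 3) = ((1 : ℤ) : ZMod 3) := by
    have := congrArg (ZMod.castHom h3 (ZMod 3)) h11
    rw [map_intCast, map_one] at this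
    exact this.trans Int.cast_one.symm
  rw [chiInt_congr h, show chiInt 1 = 1 from rfl, Int.cast_one, one_smul]

/-- A cusp form on `Γ₁(N)` is the sum of its expansion. -/
theorem hasQ_qExpansion_Gamma1 {N : ℕ} [NeZero N] {k : ℤ} (f : CuspForm (Gamma1 N) k) :
    HasQ 1 (⇑f) (qExpansion 1 (⇑f)) := fun τ => by
  have h1 := WeightOne.one_mem_strictPeriods_Gamma1 N
  have : Fact (IsCusp OnePoint.infty
      (Subgroup.map (Matrix.SpecialLinearGroup.mapGL ℝ) (Gamma1 N))) :=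
    ⟨Subgroup.isCusp_of_mem_strictPeriods one_pos h1⟩
  simpa using ModularForm.hasSum_qExpansion f one_pos h1 τ

/-- A convergent expansion gives the coefficients. -/
theorem qCoeff_eq_of_hasQ {g : ℍ → ℂ} {P : PowerSeries ℂ} (h : HasQ 1 g P) (n : ℕ) :
    qCoeff g n = PowerSeries.coeff n P := by
  have := h.qExpansion_eq
  rw [Nat.cast_one] at this
  rw [qCoeff, this]

/-- The rational translation. -/
def transRat (t : ℚ) : GL (Fin 2) ℚ :=
  Matrix.GeneralLinearGroup.mkOfDetNeZero !![1, t; 0, 1] (by simp [Matrix.det_fin_two_of])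

theorem map_transRat (t : ℚ) :
    Matrix.GeneralLinearGroup.map (Rat.castHom ℝ) (transRat t) = transGL (t : ℝ) := by
  apply Units.ext
  ext i j
  fin_cases i <;> fin_cases j <;> simp [transRat, transGL]

/-- Translates of a cusp form vanish at infinity after slashing. -/
theorem isZeroAtImInfty_slash {N : ℕ} [NeZero N] {k : ℤ} (f : CuspForm (Gamma1 N) k) (t : ℚ)
    (δ : SL(2, ℤ)) :
    IsZeroAtImInfty ((⇑f ∣[k] transGL (t : ℝ)) ∣[k] δ) := by
  change IsZeroAtImInfty ((⇑f ∣[k] transGL (t : ℝ)) ∣[k] (mapGL ℝ δ : GL (Fin 2) ℝ))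
  rw [← SlashAction.slash_mul, ← OnePoint.isZeroAt_infty_iff, ← OnePoint.IsZeroAt.smul_iff]
  refine CuspFormClass.zero_at_cusps f ?_
  rw [Subgroup.IsArithmetic.isCusp_iff_isCusp_SL2Z, isCusp_SL2Z_iff, mul_smul]
  obtain ⟨x, hx⟩ := isCusp_SL2Z_iff.mp
    (isCusp_SL2Z_iff'.mpr ⟨δ, rfl⟩ : IsCusp (mapGL ℝ δ • (OnePoint.infty : OnePoint ℝ)) 𝒮ℒ)
  refine ⟨transRat t • x, ?_⟩
  rw [← hx, ← Rat.coe_castHom, OnePoint.map_smul, map_transRat, Rat.coe_castHom]

variable {q : ℕ} [NeZero q]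

/-- A combination of the translates by `j / q`. -/
def translateSum (c : ZMod q → ℂ) (f : ℍ → ℂ) : ℍ → ℂ :=
  ∑ j : ZMod q, c j • (f ∣[(1 : ℤ)] transGL ((((j.val : ℚ) / q : ℚ)) : ℝ))

theorem translate_apply (f : ℍ → ℂ) (t : ℝ) (τ : ℍ) :
    (f ∣[(1 : ℤ)] transGL t) τ = f (t +ᵥ τ) := by
  have e : transGL t • τ = t +ᵥ τ := by
    ext
    rw [UpperHalfPlane.coe_smul, UpperHalfPlane.coe_vadd]
    simp [transGL, σ, num, denom, add_comm]
  simp only [ModularForm.slash_def, e]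
  simp [transGL, σ, denom, Matrix.GeneralLinearGroup.val_det_apply]

theorem hasQ_translateSum {f : ℍ → ℂ} {P : PowerSeries ℂ} (hf : HasQ 1 f P) (c : ZMod q → ℂ) :
    HasQ 1 (translateSum c f) (PowerSeries.mk fun n =>
      PowerSeries.coeff n P * ∑ j : ZMod q, c j * ZMod.stdAddChar (j * (n : ZMod q))) := by
  intro τ
  have h : ∀ j : ZMod q, HasSum (fun n : ℕ => PowerSeries.coeff n P *
      (c j * ZMod.stdAddChar (j * (n : ZMod q))) *
      Function.Periodic.qParam ((1 : ℕ) : ℝ) (τ : ℂ) ^ n)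
      ((c j • (f ∣[(1 : ℤ)] transGL ((((j.val : ℚ) / q : ℚ)) : ℝ))) τ) := by
    intro j
    rw [Pi.smul_apply, smul_eq_mul, translate_apply]
    refine ((hf _).mul_left (c j)).congr_fun fun n => ?_
    have hj : j * (n : ZMod q) = (((j.val : ℤ) * n : ℤ) : ZMod q) := by
      push_cast [ZMod.natCast_val, ZMod.cast_id', id_eq]; rfl
    rw [hj, ZMod.stdAddChar_coe]
    simp only [Function.Periodic.qParam, UpperHalfPlane.coe_vadd, ← Complex.exp_nat_mul]
    have e : Complex.exp (n * (2 * π * Complex.I *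
        ((((((j.val : ℚ) / q : ℚ)) : ℝ) : ℂ) + (τ : ℂ)) / (((1 : ℕ) : ℝ) : ℂ))) =
        Complex.exp (2 * π * Complex.I * (((j.val : ℤ) * n : ℤ) : ℂ) / q) *
          Complex.exp (n * (2 * π * Complex.I * (τ : ℂ) / (((1 : ℕ) : ℝ) : ℂ))) := by
      rw [← Complex.exp_add]
      congr 1
      have hq : (q : ℂ) ≠ 0 := Nat.cast_ne_zero.mpr (NeZero.ne q)
      push_cast
      field_simp
    rw [e]
    ring
  have hs := hasSum_sum (s := Finset.univ) fun j _ => h j
  simp only [translateSum, Finset.sum_apply]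
  refine hs.congr_fun fun n => ?_
  rw [PowerSeries.coeff_mk, Finset.mul_sum, Finset.sum_mul]

theorem isChiInvariant_translateSum {M : ℕ} {f : ℍ → ℂ} (hf : IsChiInvariant M f)
    (hq2 : q ^ 2 ∣ M) (h3q : 3 * q ∣ M) {c : ZMod q → ℂ}
    (hc : ∀ j u : ZMod q, IsUnit u → c (j * u ^ 2) = c j) :
    IsChiInvariant M (translateSum c f) := by
  intro γ hγ
  have h10 : (M : ℤ) ∣ γ 1 0 := (ZMod.intCast_zmod_eq_zero_iff_dvd _ _).mp (Gamma0_mem.mp hγ)
  obtain ⟨e, he⟩ : ((q ^ 2 : ℕ) : ℤ) ∣ γ 1 0 := (Int.natCast_dvd_natCast.mpr hq2).trans h10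
  obtain ⟨e', he'⟩ : ((3 * q : ℕ) : ℤ) ∣ γ 1 0 := (Int.natCast_dvd_natCast.mpr h3q).trans h10
  have hqz : (q : ℤ) ≠ 0 := by exact_mod_cast NeZero.ne q
  have hdetγ : γ 0 0 * γ 1 1 - γ 0 1 * γ 1 0 = 1 := by
    have := γ.det_coe
    rwa [Matrix.det_fin_two] at this
  have h3e : ((q : ℤ) * e : ℤ) = 3 * e' := by
    have h : ((q ^ 2 : ℕ) : ℤ) * e = ((3 * q : ℕ) : ℤ) * e' := he.symm.trans he'
    push_cast at h
    exact mul_left_cancel₀ hqz (by linear_combination h)
  set u : ZMod q := ((γ 1 1 : ℤ) : ZMod q) with hu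
  have hau : ((γ 0 0 : ℤ) : ZMod q) * u = 1 := by
    have h := congrArg (fun z : ℤ => (z : ZMod q)) hdetγ
    simp only [he] at h
    push_cast at h
    simpa [hu] using h
  have hunit : IsUnit u := IsUnit.of_mul_eq_one_right _ hau
  let e₀ : ZMod q ≃ ZMod q := (Units.mulRight (hunit.unit ^ 2 : (ZMod q)ˣ))
  have he₀ : ∀ j, e₀ j = j * u ^ 2 := fun j => by simp [e₀]
  have key : ∀ j : ZMod q,
      (f ∣[(1 : ℤ)] transGL ((((j.val : ℚ) / q : ℚ)) : ℝ)) ∣[(1 : ℤ)] γ =
        (chiInt (γ 1 1) : ℂ) •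
          (f ∣[(1 : ℤ)] transGL (((((e₀ j).val : ℚ) / q : ℚ)) : ℝ)) := by
    intro j
    set x : ℤ := ((j.val : ℕ) : ℤ) with hx
    set y : ℤ := (((e₀ j).val : ℕ) : ℤ) with hy
    obtain ⟨g, hg⟩ : (q : ℤ) ∣ x * γ 1 1 - y * (γ 0 0 + x * q * e) := by
      rw [← ZMod.intCast_zmod_eq_zero_iff_dvd]
      have ey : ((e₀ j).val : ZMod q) = j * u ^ 2 := by rw [ZMod.natCast_zmod_val, he₀]
      simp only [hx, hy]
      push_cast
      rw [ZMod.natCast_zmod_val, ey, ← hu]
      simp only [ZMod.natCast_self, mul_zero, zero_mul, add_zero]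
      linear_combination (-(j * u)) * hau
    obtain ⟨γ', hγ'⟩ : ∃ γ' : SL(2, ℤ), γ'.1 =
        !![γ 0 0 + x * q * e, γ 0 1 + g; γ 1 0, γ 1 1 - y * q * e] := by
      refine ⟨⟨_, ?_⟩, rfl⟩
      rw [Matrix.det_fin_two_of, he]
      rw [he] at hdetγ
      push_cast at hdetγ ⊢
      linear_combination hdetγ + (q : ℤ) * e * hg
    have hγ'0 : γ' ∈ Gamma0 M := by
      rw [Gamma0_mem]
      simpa [hγ'] using Gamma0_mem.mp hγ
    have hmul : transGL ((((j.val : ℚ) / q : ℚ)) : ℝ) * (mapGL ℝ γ : GL (Fin 2) ℝ) =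
        (mapGL ℝ γ' : GL (Fin 2) ℝ) * transGL (((((e₀ j).val : ℚ) / q : ℚ)) : ℝ) := by
      have hxR : ((j.val : ℕ) : ℝ) = (x : ℝ) := by simp [hx]
      have hyR : (((e₀ j).val : ℕ) : ℝ) = (y : ℝ) := by simp [hy]
      have heR : ((γ 1 0 : ℤ) : ℝ) = (q : ℝ) ^ 2 * e := by rw [he]; push_cast; ring
      have hgR : (x : ℝ) * (γ 1 1 : ℤ) - y * ((γ 0 0 : ℤ) + x * q * e) = q * g := by
        exact_mod_cast hg
      have hqR : (q : ℝ) ≠ 0 := Nat.cast_ne_zero.mpr (NeZero.ne q)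
      apply Units.ext
      ext a b
      push_cast
      rw [hxR, hyR]
      fin_cases a <;> fin_cases b <;>
        simp [transGL, Matrix.mul_apply, Fin.sum_univ_two, hγ', heR] <;> field_simp
      all_goals first
        | ring1
        | linear_combination hgR
    change (f ∣[(1 : ℤ)] transGL _) ∣[(1 : ℤ)] (mapGL ℝ γ : GL (Fin 2) ℝ) = _
    rw [← SlashAction.slash_mul, hmul, SlashAction.slash_mul]
    change (f ∣[(1 : ℤ)] γ') ∣[(1 : ℤ)] transGL _ = _
    rw [hf γ' hγ'0, ModularForm.smul_slash]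
    have hσ : σ (transGL (((((e₀ j).val : ℚ) / q : ℚ)) : ℝ)) = .refl ℝ ℂ := by
      simp [σ, transGL, Matrix.GeneralLinearGroup.val_det_apply]
    rw [hσ, ContinuousAlgEquiv.refl_apply]
    congr 2
    refine chiInt_congr ?_
    have hq3 : ((y * q * e : ℤ) : ZMod 3) = 0 := by
      rw [mul_assoc, h3e]; push_cast; rw [show (3 : ZMod 3) = 0 from rfl, zero_mul, mul_zero]
    simp only [hγ']
    push_cast at hq3 ⊢
    simp [hq3]
  rw [translateSum, SlashAction.sum_slash, Finset.smul_sum]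
  refine Fintype.sum_equiv e₀ _ _ fun j => ?_
  rw [show (c j • (f ∣[(1 : ℤ)] transGL ((((j.val : ℚ) / q : ℚ)) : ℝ))) ∣[(1 : ℤ)] γ =
      c j • ((f ∣[(1 : ℤ)] transGL ((((j.val : ℚ) / q : ℚ)) : ℝ)) ∣[(1 : ℤ)] γ) from
    ModularForm.SL_smul_slash _ _ _ _, key, he₀, hc j u hunit, smul_comm]

/-- **Sums of translates.** -/
theorem exists_translateSum {M : ℕ} [NeZero M] (f : CuspForm (Gamma1 M) 1)
    (hf : IsChiInvariant M f) (hq2 : q ^ 2 ∣ M) (h3q : 3 * q ∣ M) (c : ZMod q → ℂ)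
    (hc : ∀ j u : ZMod q, IsUnit u → c (j * u ^ 2) = c j) :
    ∃ F : CuspForm (Gamma1 M) 1, IsChiInvariant M F ∧ ∀ n : ℕ,
      qCoeff F n = qCoeff f n * ∑ j : ZMod q, c j * ZMod.stdAddChar (j * (n : ZMod q)) := by
  have hinv := isChiInvariant_translateSum hf hq2 h3q hc
  have hq := hasQ_translateSum (hasQ_qExpansion_Gamma1 f) c
  have hzero : ∀ δ : SL(2, ℤ), IsZeroAtImInfty (translateSum c (⇑f) ∣[(1 : ℤ)] δ) := by
    intro δ
    rw [translateSum, SlashAction.sum_slash]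
    refine Finset.sum_induction _ (fun g : ℍ → ℂ => IsZeroAtImInfty g)
      (fun a b ha hb => ha.add hb) (Filter.zero_zeroAtFilter _) fun j _ => ?_
    rw [ModularForm.SL_smul_slash]
    exact (isZeroAtImInfty_slash f _ δ).smul (c j)
  let F : CuspForm (Gamma1 M) 1 :=
    { toFun := translateSum c ⇑f
      slash_action_eq' := fun g hg => by
        obtain ⟨γ, hγ, rfl⟩ := Subgroup.mem_map.mp hg
        exact slash_eq_of_mem_Gamma1 hinv ((dvd_mul_right 3 q).trans h3q) hγ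
      holo' := hq.mdifferentiable
      zero_at_cusps' := fun {x} hx => by
        rw [Subgroup.IsArithmetic.isCusp_iff_isCusp_SL2Z] at hx
        rw [OnePoint.isZeroAt_iff_forall_SL2Z hx]
        exact fun δ _ => hzero δ }
  exact ⟨F, hinv, fun n => by
    change qCoeff (translateSum c ⇑f) n = _
    rw [qCoeff_eq_of_hasQ hq n, PowerSeries.coeff_mk]; rfl⟩

omit [NeZero q] in
/-- Removal of the coefficients at the multiples of a prime. -/
theorem exists_strip {M : ℕ} [NeZero M] (f : CuspForm (Gamma1 M) 1) (hf : IsChiInvariant M f)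
    {p : ℕ} (hp : p ≠ 0) (hp2 : p ^ 2 ∣ M) (h3p : 3 * p ∣ M) :
    ∃ F : CuspForm (Gamma1 M) 1, IsChiInvariant M F ∧
      ∀ n : ℕ, qCoeff F n = if p ∣ n then 0 else qCoeff f n := by
  have : NeZero p := ⟨hp⟩
  obtain ⟨F, hF, hFn⟩ := exists_translateSum f hf hp2 h3p
    (fun j : ZMod p => (if j = 0 then 1 else 0) - 1 / (p : ℂ)) (by
      intro j u hu
      have : j * u ^ 2 = 0 ↔ j = 0 := (hu.pow 2).mul_left_eq_zero
      simp [this])
  refine ⟨F, hF, fun n => ?_⟩
  have hs : ∑ j : ZMod p, ZMod.stdAddChar (j * (n : ZMod p)) =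
      if (n : ZMod p) = 0 then (p : ℂ) else 0 := by
    rw [AddChar.sum_mulShift (n : ZMod p) (ZMod.isPrimitive_stdAddChar p)]
    split_ifs <;> simp [ZMod.card]
  rw [hFn n]
  simp only [sub_mul, Finset.sum_sub_distrib, ite_mul, one_mul, zero_mul, Finset.sum_ite_eq',
    Finset.mem_univ, if_true, AddChar.map_zero_eq_one, ← Finset.mul_sum, hs,
    ZMod.natCast_eq_zero_iff]
  have hpC : (p : ℂ) ≠ 0 := Nat.cast_ne_zero.mpr hp
  split_ifs with h
  · rw [one_div_mul_cancel hpC, sub_self, mul_zero]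
  · simp

omit [NeZero q] in
/-- The twist by `χ₋₃`. -/
theorem exists_twist {M : ℕ} [NeZero M] (f : CuspForm (Gamma1 M) 1) (hf : IsChiInvariant M f)
    (h9 : 9 ∣ M) : ∃ F : CuspForm (Gamma1 M) 1, IsChiInvariant M F ∧
      ∀ n : ℕ, qCoeff F n = (chiNegThree n : ℂ) * qCoeff f n := by
  set G : ℂ := ZMod.stdAddChar (1 : ZMod 3) - ZMod.stdAddChar (2 : ZMod 3) with hG
  have hG0 : G ≠ 0 := sub_ne_zero.mpr fun h => absurd
    (ZMod.injective_stdAddChar h) (by decide)
  obtain ⟨F, hF, hFn⟩ := exists_translateSum f hf (q := 3) h9 h9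
    (fun j => (chiNegThree j.val : ℂ) / G) (by
      intro j u hu
      have : u ^ 2 = 1 := by
        have hu0 : u ≠ 0 := hu.ne_zero
        revert hu0; revert u; decide
      rw [this, mul_one])
  refine ⟨F, hF, fun n => ?_⟩
  rw [hFn n, mul_comm _ (qCoeff (⇑f) n)]
  congr 1
  rw [← chiInt_natCast, chiInt, Int.cast_natCast]
  generalize (n : ZMod 3) = m
  rw [show (Finset.univ : Finset (ZMod 3)) = {0, 1, 2} from rfl, Finset.sum_insert (by decide),
    Finset.sum_insert (by decide), Finset.sum_singleton]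
  have c0 : chiNegThree (0 : ZMod 3).val = 0 := rfl
  have c1 : chiNegThree (1 : ZMod 3).val = 1 := rfl
  have c2 : chiNegThree (2 : ZMod 3).val = -1 := rfl
  have m0 : (2 : ZMod 3) * 2 = 1 := rfl
  simp only [c0, c1, c2]
  push_cast
  have hm : m = 0 ∨ m = 1 ∨ m = 2 := by revert m; decide
  rcases hm with rfl | rfl | rfl
  · simp only [mul_zero, AddChar.map_zero_eq_one, c0]
    push_cast
    ring
  · simp only [mul_one, c1]
    push_cast
    field_simp
    rw [hG]; ring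
  · simp only [one_mul, m0, c2]
    push_cast
    field_simp
    rw [hG]; ring

end Fermat.Agent.LT.Final

end
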