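import Fermat.Prelude.Def_LanglandsTunnell_ExplicitLift
import Fermat.Prelude.Def_GaloisRep_Residual
import Mathlib.NumberTheory.DirichletCharacter.Basic
import Mathlib.NumberTheory.Zsqrtd.Basic

/-!
# The automorphic input of the weight one step

`HasSplitWeightOneForm ρ Ψ N` is what cubic descent followed by the theta lift provides: a
normalised weight one form on `Γ₁(N)`, eigen for the good Hecke operators, whose eigenvalue at
almost every prime splitting completely in the cubic field is the trace of the lift `Ψ` at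
Frobenius.
-/

set_option autoImplicit false

noncomputable section

open CongruenceSubgroup

namespace Fermat.Agent.LT.Final

local notation "Γℚ" => (AlgebraicClosure ℚ ≃ₐ[ℚ] AlgebraicClosure ℚ)

/-- `g` lies in the normal Sylow `2`-subgroup (a quaternion group) of `SL₂(𝔽₃)`. -/
def InQuaternion (g : GL (Fin 2) (ZMod 3)) : Prop :=
  Matrix.GeneralLinearGroup.det g = 1 ∧ g ^ 4 = 1

/-- The relations of the good Hecke operators with character `ε`, as required by the Deligne–Serre
theorem. -/
def HasGoodHeckeRelations {N : ℕ} (ε : DirichletCharacter ℂ N)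
    (f : CuspForm (Gamma1 N) 1) : Prop :=
  ∀ p : ℕ, p.Prime → ¬ p ∣ N → ∀ n : ℕ,
    ModularFormClass.qCoeff f (p * n) +
        ε (p : ZMod N) * (if p ∣ n then ModularFormClass.qCoeff f (n / p) else 0) =
      ModularFormClass.qCoeff f p * ModularFormClass.qCoeff f n

/-- A normalised weight one eigenform of level `N` with the traces of `Ψ ∘ ρ` at almost all primes
whose Frobenius lies in the quaternion subgroup. Nothing is assumed about its character, about
the coefficients at primes dividing `N`, or about the other primes. -/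
def HasSplitWeightOneForm (ρ : Γℚ →* GL (Fin 2) (ZMod 3))
    (Ψ : GL (Fin 2) (ZMod 3) →* GL (Fin 2) (ℤ√(-2))) (N : ℕ) : Prop :=
  0 < N ∧ ∃ (ι : ℤ√(-2) →+* ℂ) (ε : DirichletCharacter ℂ N) (f : CuspForm (Gamma1 N) 1)
    (T : Finset ℕ),
    ModularFormClass.qCoeff f 1 = 1 ∧ HasGoodHeckeRelations ε f ∧
    ∀ p : ℕ, p.Prime → p ∉ T → ¬ p ∣ 3 * N →
      ∀ A : ValuationSubring (AlgebraicClosure ℚ), A.LiesOverPrime p →
        (∀ τ ∈ A.inertiaSubgroupIn ℚ, ρ τ = 1) →
        ∀ σ : Γℚ, A.IsFrobeniusAt σ p → InQuaternion (ρ σ) →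
          ModularFormClass.qCoeff f p =
            ι ((Ψ (ρ σ) : GL (Fin 2) (ℤ√(-2))) : Matrix (Fin 2) (Fin 2) (ℤ√(-2))).trace

end Fermat.Agent.LT.Final

end
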