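import Mathlib.Algebra.Field.ZMod
import Mathlib.LinearAlgebra.Matrix.GeneralLinearGroup.Defs
import Mathlib.LinearAlgebra.Matrix.GeneralLinearGroup.Card
import Mathlib.GroupTheory.Index
import Mathlib.Analysis.Complex.Polynomial.Basic
import Mathlib.Tactic.LinearCombination

/-!
# Two-dimensional complex representations of `GL₂(𝔽₃)` which send `-1` to `-1`

Any two of them differ by a character of the determinant: both restrict to the quaternion group
as a pair of anticommuting square roots of `-1`, which has a unique normal form.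
-/

set_option autoImplicit false

noncomputable section

open Matrix

namespace Fermat.Agent.LT.Final

/-- `GL₂(𝔽₃)`. -/
abbrev GF3 : Type := GL (Fin 2) (ZMod 3)

/-- The upper unipotent of parameter `x`. -/
def upperUni (x : ZMod 3) : GF3 := Matrix.GeneralLinearGroup.mkOfDetNeZero !![1, x; 0, 1] (by simp)

/-- The lower unipotent of parameter `x`. -/
def lowerUni (x : ZMod 3) : GF3 := Matrix.GeneralLinearGroup.mkOfDetNeZero !![1, 0; x, 1] (by simp)

/-- `diag (-1, 1)`. -/
def reflEl : GF3 := Matrix.GeneralLinearGroup.mkOfDetNeZero !![-1, 0; 0, 1] (by decide)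

/-- The standard element of order four. -/
def quatI : GF3 := Matrix.GeneralLinearGroup.mkOfDetNeZero !![0, -1; 1, 0] (by decide)

/-- A second element of order four anticommuting with `quatI`. -/
def quatJ : GF3 := Matrix.GeneralLinearGroup.mkOfDetNeZero !![1, 1; 1, -1] (by decide)

theorem word_entries : ∀ a b c d : ZMod 3, a * d - b * c ≠ 0 → ∃ x y z w : ZMod 3,
    !![a, b; c, d] = !![1, x; 0, 1] * !![1, 0; y, 1] * !![1, z; 0, 1] * !![1, 0; w, 1] *
      (if a * d - b * c = 1 then (1 : Matrix (Fin 2) (Fin 2) (ZMod 3)) else !![-1, 0; 0, 1]) := by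
  decide

theorem word_conj : ∀ a b c d : ZMod 3, a * d - b * c ≠ 0 → ∀ k : Bool, ∃ m : Fin 4, ∃ n : Fin 2,
    !![a, b; c, d] * (if k then !![0, -1; 1, 0] else !![1, 1; 1, -1]) =
      !![0, -1; 1, 0] ^ (m : ℕ) * !![1, 1; 1, -1] ^ (n : ℕ) * !![a, b; c, d] := by
  decide

theorem conj_quat_eq (g : GF3) {k : GF3} (hk : k = quatI ∨ k = quatJ) :
    ∃ m n : ℕ, g * k * g⁻¹ = quatI ^ m * quatJ ^ n := by
  have hg : (g : Matrix (Fin 2) (Fin 2) (ZMod 3)) = !![g.1 0 0, g.1 0 1; g.1 1 0, g.1 1 1] :=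
    eta_fin_two _
  have hne : g.1 0 0 * g.1 1 1 - g.1 0 1 * g.1 1 0 ≠ 0 := by
    have := (Matrix.GeneralLinearGroup.det g).ne_zero
    rwa [Matrix.GeneralLinearGroup.val_det_apply, det_fin_two] at this
  rcases hk with rfl | rfl
  · obtain ⟨m, n, h⟩ := word_conj _ _ _ _ hne true
    refine ⟨m, n, mul_inv_eq_iff_eq_mul.mpr (Units.ext ?_)⟩
    rw [if_pos rfl, ← hg] at h
    simp only [Units.val_mul, Units.val_pow_eq_pow_val]
    exact h
  · obtain ⟨m, n, h⟩ := word_conj _ _ _ _ hne false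
    refine ⟨m, n, mul_inv_eq_iff_eq_mul.mpr (Units.ext ?_)⟩
    rw [if_neg (by simp), ← hg] at h
    simp only [Units.val_mul, Units.val_pow_eq_pow_val]
    exact h

theorem reflEl_conj_upper (x : ZMod 3) : reflEl * upperUni x * reflEl⁻¹ = (upperUni x)⁻¹ := by
  rw [mul_inv_eq_iff_eq_mul, eq_inv_mul_iff_mul_eq]
  apply Units.ext
  revert x; decide

theorem reflEl_conj_lower (x : ZMod 3) : reflEl * lowerUni x * reflEl⁻¹ = (lowerUni x)⁻¹ := by
  rw [mul_inv_eq_iff_eq_mul, eq_inv_mul_iff_mul_eq]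
  apply Units.ext
  revert x; decide

theorem upperUni_cube (x : ZMod 3) : upperUni x ^ 3 = 1 := by
  apply Units.ext
  revert x; decide

theorem lowerUni_cube (x : ZMod 3) : lowerUni x ^ 3 = 1 := by
  apply Units.ext
  revert x; decide

variable {M : Type*} [CommGroup M]

theorem character_eq_one_of_conj {η : GF3 →* M} {g : GF3} (h3 : g ^ 3 = 1)
    (hc : reflEl * g * reflEl⁻¹ = g⁻¹) : η g = 1 := by
  have h1 := congrArg η hc
  rw [map_mul, map_mul, map_inv, map_inv, mul_comm (η reflEl), mul_inv_cancel_right] at h1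
  have h2 : η g ^ 2 = 1 := by rw [pow_two]; exact mul_eq_one_iff_eq_inv.mpr h1
  have h3' : η g ^ 3 = 1 := by rw [← map_pow, h3, map_one]
  simpa [pow_succ, h2] using h3'

/-- A character of `GL₂(𝔽₃)` factors through the determinant. -/
theorem character_eq (η : GF3 →* M) (g : GF3) :
    η g = if Matrix.GeneralLinearGroup.det g = 1 then 1 else η reflEl := by
  have hu : ∀ x, η (upperUni x) = 1 := fun x =>
    character_eq_one_of_conj (upperUni_cube x) (reflEl_conj_upper x)
  have hl : ∀ x, η (lowerUni x) = 1 := fun x =>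
    character_eq_one_of_conj (lowerUni_cube x) (reflEl_conj_lower x)
  set a := (g : Matrix (Fin 2) (Fin 2) (ZMod 3)) 0 0
  set b := (g : Matrix (Fin 2) (Fin 2) (ZMod 3)) 0 1
  set c := (g : Matrix (Fin 2) (Fin 2) (ZMod 3)) 1 0
  set d := (g : Matrix (Fin 2) (Fin 2) (ZMod 3)) 1 1
  have hg : (g : Matrix (Fin 2) (Fin 2) (ZMod 3)) = !![a, b; c, d] := eta_fin_two _
  have hdet : ((Matrix.GeneralLinearGroup.det g : (ZMod 3)ˣ) : ZMod 3) = a * d - b * c := by
    rw [Matrix.GeneralLinearGroup.val_det_apply, det_fin_two]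
  have hne : a * d - b * c ≠ 0 := hdet ▸ (Matrix.GeneralLinearGroup.det g).ne_zero
  obtain ⟨x, y, z, w, hw⟩ := word_entries a b c d hne
  by_cases h1 : Matrix.GeneralLinearGroup.det g = 1
  · rw [if_pos h1]
    have h1' : a * d - b * c = 1 := by rw [← hdet, h1, Units.val_one]
    rw [if_pos h1'] at hw
    rw [show g = upperUni x * lowerUni y * upperUni z * lowerUni w from Units.ext (by
      rw [hg, hw, mul_one]; rfl)]
    simp [map_mul, hu, hl]
  · rw [if_neg h1]
    have h1' : a * d - b * c ≠ 1 := fun h => h1 (Units.ext (hdet.trans h))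
    rw [if_neg h1'] at hw
    rw [show g = upperUni x * lowerUni y * upperUni z * lowerUni w * reflEl from Units.ext (by
      rw [hg, hw]; rfl)]
    simp [map_mul, hu, hl]

/-- The normal form of `quatI`. -/
def stdI : Matrix (Fin 2) (Fin 2) ℂ := !![Complex.I, 0; 0, -Complex.I]

/-- The normal form of `quatJ`. -/
def stdJ : Matrix (Fin 2) (Fin 2) ℂ := !![0, -1; 1, 0]

/-- The normal form of two anticommuting square roots of `-1`. -/
theorem exists_normalForm {A B : Matrix (Fin 2) (Fin 2) ℂ} (hA : A * A = -1) (hB : B * B = -1)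
    (hAB : B * A = -(A * B)) :
    ∃ S : GL (Fin 2) ℂ, A * (S : Matrix (Fin 2) (Fin 2) ℂ) = S * stdI ∧
      B * (S : Matrix (Fin 2) (Fin 2) ℂ) = S * stdJ := by
  -- an eigenvector of `A` for `I`
  have hex : ∃ v : Fin 2 → ℂ, v ≠ 0 ∧ A *ᵥ v = Complex.I • v := by
    by_contra hcon
    simp only [not_exists, not_and] at hcon
    have hz : ∀ w : Fin 2 → ℂ, A *ᵥ w + Complex.I • w = 0 := by
      intro w
      by_contra hne
      refine hcon _ hne ?_
      rw [mulVec_add, mulVec_mulVec, hA, mulVec_smul, neg_mulVec, one_mulVec, smul_add, smul_smul,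
        Complex.I_mul_I, neg_one_smul, add_comm]
    have hAeq : A = -Complex.I • (1 : Matrix (Fin 2) (Fin 2) ℂ) := by
      refine ext_of_mulVec_single fun i => ?_
      rw [smul_mulVec, one_mulVec, neg_smul]
      exact eq_neg_of_add_eq_zero_left (hz _)
    rw [hAeq, mul_smul_comm, smul_mul_assoc, mul_one, one_mul] at hAB
    have h2 : (-Complex.I + -Complex.I) • B = 0 := by
      rw [add_smul, ← eq_neg_iff_add_eq_zero]; exact hAB
    have hB0 : B = 0 := (smul_eq_zero.mp h2).resolve_left (by simp [Complex.ext_iff])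
    rw [hB0, zero_mul, eq_comm, neg_eq_zero] at hB
    exact one_ne_zero hB
  obtain ⟨v, hv, hAv⟩ := hex
  set w : Fin 2 → ℂ := B *ᵥ v with hw
  have hAw : A *ᵥ w = -Complex.I • w := by
    have h : A * B = -(B * A) := by rw [hAB, neg_neg]
    rw [hw, mulVec_mulVec, h, neg_mulVec, ← mulVec_mulVec, hAv, mulVec_smul, neg_smul]
  have hBw : B *ᵥ w = -v := by rw [hw, mulVec_mulVec, hB, neg_mulVec, one_mulVec]
  have hw0 : w ≠ 0 := fun h => hv (by simpa [h] using hBw)
  set S : Matrix (Fin 2) (Fin 2) ℂ := (Matrix.of ![v, w])ᵀ with hS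
  have hdet : S.det ≠ 0 := by
    intro h0
    obtain ⟨u, hu, hSu⟩ := exists_mulVec_eq_zero_iff.mpr h0
    have e : u 0 • v + u 1 • w = 0 := by
      funext i
      have := congrFun hSu i
      simpa [hS, mulVec, dotProduct, Fin.sum_univ_two, mul_comm] using this
    have e' : (u 0 * Complex.I) • v + (u 1 * -Complex.I) • w = 0 := by
      have := congrArg (A *ᵥ ·) e
      simpa only [mulVec_add, mulVec_smul, hAv, hAw, smul_smul, mulVec_zero] using this
    have e0 : (2 * Complex.I * u 0) • v = 0 := by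
      funext i
      have h1 := congrFun e i
      have h2 := congrFun e' i
      simp only [Pi.add_apply, Pi.smul_apply, smul_eq_mul, Pi.zero_apply] at h1 h2 ⊢
      linear_combination Complex.I * h1 + h2
    have hu0 : u 0 = 0 := by simpa [hv] using e0
    have hu1 : u 1 = 0 := by simpa [hu0, hw0] using e
    exact hu (funext fun i => by fin_cases i <;> assumption)
  refine ⟨Matrix.GeneralLinearGroup.mkOfDetNeZero S hdet, ?_, ?_⟩
  · change A * S = S * stdI
    ext i j
    have h1 := congrFun hAv i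
    have h2 := congrFun hAw i
    fin_cases j <;>
      simp [hS, stdI, Matrix.mul_apply, Fin.sum_univ_two, mulVec, dotProduct] at h1 h2 ⊢
    · linear_combination h1
    · linear_combination h2
  · change B * S = S * stdJ
    ext i j
    have h2 := congrFun hBw i
    fin_cases j <;>
      simp [hS, hw, stdJ, Matrix.mul_apply, Fin.sum_univ_two, mulVec, dotProduct] at h2 ⊢
    all_goals linear_combination h2

/-- A matrix commuting with the two normal forms is a scalar. -/
theorem eq_scalar_of_commute {T : Matrix (Fin 2) (Fin 2) ℂ} (hI : T * stdI = stdI * T)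
    (hJ : T * stdJ = stdJ * T) : T = T 0 0 • (1 : Matrix (Fin 2) (Fin 2) ℂ) := by
  have h01 := congrFun (congrFun hI 0) 1
  have h10 := congrFun (congrFun hI 1) 0
  have j10 := congrFun (congrFun hJ 1) 0
  simp [stdI, stdJ, Matrix.mul_apply, Fin.sum_univ_two] at h01 h10 j10
  have e01 : T 0 1 = 0 := by
    have h : (2 * Complex.I) * T 0 1 = 0 := by linear_combination -h01
    simpa using h
  have e10 : T 1 0 = 0 := by
    have h : (2 * Complex.I) * T 1 0 = 0 := by linear_combination h10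
    simpa using h
  ext i j
  fin_cases i <;> fin_cases j <;> simp [e01, e10]
  exact j10

variable (R P : GF3 →* GL (Fin 2) ℂ)

theorem quat_relations : quatI * quatI = -1 ∧ quatJ * quatJ = -1 ∧
    quatJ * quatI = -1 * (quatI * quatJ) := by
  refine ⟨?_, ?_, ?_⟩ <;> apply Units.ext <;> decide

theorem exists_quat_normalForm (hR : R (-1) = -1) :
    ∃ S : GL (Fin 2) ℂ, (R quatI : Matrix (Fin 2) (Fin 2) ℂ) * S = S * stdI ∧
      (R quatJ : Matrix (Fin 2) (Fin 2) ℂ) * S = S * stdJ := by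
  obtain ⟨h1, h2, h3⟩ := quat_relations
  have key : ∀ g h k : GF3, g * h = -1 * k →
      (R g : Matrix (Fin 2) (Fin 2) ℂ) * R h = -(R k : Matrix (Fin 2) (Fin 2) ℂ) := by
    intro g h k e
    rw [← Units.val_mul, ← map_mul, e, map_mul, hR, Units.val_mul, Units.val_neg, Units.val_one,
      neg_one_mul]
  obtain ⟨S, hS1, hS2⟩ := exists_normalForm (A := R quatI) (B := R quatJ)
    (by simpa using key _ _ 1 (by rw [h1, mul_one]))
    (by simpa using key _ _ 1 (by rw [h2, mul_one]))
    (by simpa [map_mul] using key _ _ _ h3)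
  exact ⟨S, hS1, hS2⟩

/-- Two representations sending `-1` to `-1` differ by a sign character of the determinant. -/
theorem eq_or_eq_twist (hR : R (-1) = -1) (hP : P (-1) = -1) :
    ∃ s : ℂ, (s = 1 ∨ s = -1) ∧ ∀ g : GF3,
      (R g : Matrix (Fin 2) (Fin 2) ℂ).trace =
        (if Matrix.GeneralLinearGroup.det g = 1 then 1 else s) *
          (P g : Matrix (Fin 2) (Fin 2) ℂ).trace ∧
      (R g : Matrix (Fin 2) (Fin 2) ℂ).det = (P g : Matrix (Fin 2) (Fin 2) ℂ).det := by
  obtain ⟨S, hSI, hSJ⟩ := exists_quat_normalForm R hR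
  obtain ⟨S', hSI', hSJ'⟩ := exists_quat_normalForm P hP
  set U : GL (Fin 2) ℂ := S * S'⁻¹ with hU
  -- `U` intertwines the two restrictions to the quaternion group
  have hint : ∀ k : GF3, (∃ E, (R k : Matrix (Fin 2) (Fin 2) ℂ) * S = S * E ∧
      (P k : Matrix (Fin 2) (Fin 2) ℂ) * S' = S' * E) → R k = U * P k * U⁻¹ := by
    rintro k ⟨E, e1, e2⟩
    rw [eq_mul_inv_iff_mul_eq]
    apply Units.ext
    have e3 : (P k : Matrix (Fin 2) (Fin 2) ℂ) =
        (S' : Matrix (Fin 2) (Fin 2) ℂ) * E * ((S'⁻¹ : GL (Fin 2) ℂ) : Matrix (Fin 2) (Fin 2) ℂ) := by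
      rw [← e2, Units.mul_inv_cancel_right]
    simp only [hU, Units.val_mul, e3, mul_assoc, Units.inv_mul_cancel_left]
    rw [← mul_assoc, e1, mul_assoc]
  have hI := hint quatI ⟨_, hSI, hSI'⟩
  have hJ := hint quatJ ⟨_, hSJ, hSJ'⟩
  -- conjugates of the quaternion generators
  have hconj : ∀ g : GF3, ∀ k ∈ ({quatI, quatJ} : Set GF3),
      R (g * k * g⁻¹) = U * P (g * k * g⁻¹) * U⁻¹ := by
    intro g k hk
    have : g * k * g⁻¹ ∈ Subgroup.closure ({quatI, quatJ} : Set GF3) := by
      obtain ⟨m, n, hw⟩ := conj_quat_eq g hk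
      rw [hw]
      exact mul_mem (pow_mem (Subgroup.subset_closure (by simp)) _)
        (pow_mem (Subgroup.subset_closure (by simp)) _)
    have heq : Set.EqOn R ((MulAut.conj U).toMonoidHom.comp P)
        (Subgroup.closure ({quatI, quatJ} : Set GF3)) :=
      MonoidHom.eqOn_closure (by
        rintro x (rfl | rfl)
        exacts [hI, hJ])
    exact heq this
  set T : GF3 → GL (Fin 2) ℂ := fun g => (P g)⁻¹ * U⁻¹ * R g * U with hT
  have hcomm : ∀ g, ∀ k ∈ ({quatI, quatJ} : Set GF3), T g * P k = P k * T g := by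
    intro g k hk
    have h1 := hconj g k hk
    have hk' : R k = U * P k * U⁻¹ := by
      rcases hk with rfl | rfl
      exacts [hI, hJ]
    simp only [map_mul, map_inv] at h1
    rw [hk'] at h1
    have h2 := congrArg (fun x => (P g)⁻¹ * U⁻¹ * x * R g * U) h1
    simp only [mul_assoc, inv_mul_cancel, mul_one, inv_mul_cancel_left] at h2
    simp only [hT, mul_assoc]
    exact h2
  have hscal : ∀ g, ∃ c : ℂ, (T g : Matrix (Fin 2) (Fin 2) ℂ) = c • 1 := by
    intro g
    have e : ∀ (k : GF3) (E : Matrix (Fin 2) (Fin 2) ℂ),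
        k ∈ ({quatI, quatJ} : Set GF3) → (P k : Matrix (Fin 2) (Fin 2) ℂ) * S' = S' * E →
        (↑(S'⁻¹ * T g * S') : Matrix (Fin 2) (Fin 2) ℂ) * E =
          E * (↑(S'⁻¹ * T g * S') : Matrix (Fin 2) (Fin 2) ℂ) := by
      intro k E hk hE
      have hE' : E = (↑(S'⁻¹ * P k * S') : Matrix (Fin 2) (Fin 2) ℂ) := by
        rw [Units.val_mul, Units.val_mul, mul_assoc, hE, Units.inv_mul_cancel_left]
      rw [hE', ← Units.val_mul, ← Units.val_mul]
      congr 1
      simp only [mul_assoc, mul_inv_cancel_left]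
      rw [← mul_assoc (T g), hcomm g k hk, mul_assoc]
    have h := eq_scalar_of_commute (e quatI _ (by simp) hSI') (e quatJ _ (by simp) hSJ')
    refine ⟨(↑(S'⁻¹ * T g * S') : Matrix (Fin 2) (Fin 2) ℂ) 0 0, ?_⟩
    have h2 : (T g : Matrix (Fin 2) (Fin 2) ℂ) =
        (S' : Matrix (Fin 2) (Fin 2) ℂ) * (↑(S'⁻¹ * T g * S') : Matrix (Fin 2) (Fin 2) ℂ) *
          ((S'⁻¹ : GL (Fin 2) ℂ) : Matrix (Fin 2) (Fin 2) ℂ) := by
      simp only [Units.val_mul, mul_assoc, Units.mul_inv_cancel_left, Units.mul_inv, mul_one]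
    rw [h2]
    conv_lhs => rw [h]
    rw [mul_smul_comm, mul_one, smul_mul_assoc, Units.mul_inv]
  choose c hc using hscal
  have hR' : ∀ g, (R g : Matrix (Fin 2) (Fin 2) ℂ) =
      c g • (U * P g * U⁻¹ : GL (Fin 2) ℂ) := by
    intro g
    have : R g = U * P g * T g * U⁻¹ := by simp [hT, mul_assoc]
    rw [this]
    simp only [Units.val_mul, hc, mul_smul_comm, smul_mul_assoc, mul_one]
  have hscalinj : ∀ {a b : ℂ} (V : GL (Fin 2) ℂ),
      a • (V : Matrix (Fin 2) (Fin 2) ℂ) = b • (V : Matrix (Fin 2) (Fin 2) ℂ) → a = b := by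
    intro a b V h
    have := congrArg (fun X : Matrix (Fin 2) (Fin 2) ℂ =>
      (X * ((V⁻¹ : GL (Fin 2) ℂ) : Matrix (Fin 2) (Fin 2) ℂ)) 0 0) h
    simpa [smul_mul_assoc] using this
  have hmul : ∀ g h, c (g * h) = c g * c h := by
    intro g h
    refine hscalinj (U * P (g * h) * U⁻¹) ?_
    rw [← hR', map_mul, Units.val_mul, hR' g, hR' h, smul_mul_smul_comm, ← Units.val_mul]
    simp [map_mul, mul_assoc]
  have hone : c 1 = 1 := hscalinj (U * P 1 * U⁻¹) (by rw [← hR', map_one, one_smul]; simp)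
  let η₀ : GF3 →* ℂ := { toFun := c, map_one' := hone, map_mul' := hmul }
  let η : GF3 →* ℂˣ := η₀.toHomUnits
  have hval : ∀ g, c g = ((if Matrix.GeneralLinearGroup.det g = 1 then 1 else η reflEl : ℂˣ) : ℂ) :=
    fun g => by rw [← character_eq η g]; rfl
  have hs : c reflEl ^ 2 = 1 := by
    rw [pow_two, ← hmul, ← hone]
    congr 1
    apply Units.ext
    decide
  refine ⟨c reflEl, sq_eq_one_iff.mp hs, fun g => ?_⟩
  have hcg : c g = if Matrix.GeneralLinearGroup.det g = 1 then 1 else c reflEl := by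
    rw [hval g]; split_ifs <;> rfl
  have hcg2 : c g ^ 2 = 1 := by
    rw [hcg]; split_ifs <;> simp [hs]
  rw [hR' g, trace_smul, det_smul, smul_eq_mul, Fintype.card_fin, hcg2, one_mul, ← hcg]
  constructor
  · congr 1
    simp only [Units.val_mul]
    rw [trace_mul_cycle, Units.inv_mul, one_mul]
  · simp only [Units.val_mul, det_mul]
    rw [mul_comm _ (P g : Matrix (Fin 2) (Fin 2) ℂ).det, mul_assoc, ← det_mul, Units.mul_inv,
      det_one, mul_one]

end Fermat.Agent.LT.Final

end
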