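import Fermat.Prelude.Def_Deformations_MatrixRepresentation
import Fermat.Prelude.Def_GaloisRep_ModThreeCyclotomic
import Fermat.Prelude.Def_ModularForm_EisensteinChiNegThree
import Fermat.Agent.Chebotarev.Basic
import Fermat.Agent.GaloisBasics.Roots
import Fermat.Agent.LT.Final.Data
import Fermat.Agent.LT.Final.GroupTwoThree

/-!
# The Galois representation of a split weight one form is `Ψ ∘ ρ` up to a sign twist

Only two facts are taken from the form: the representation attached to it is trivial on the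
kernel of `ρ` and sends an element over `-1` to `-1`.
-/

set_option autoImplicit false

noncomputable section

open CongruenceSubgroup EisensteinWeightOne WeierstrassCurve Matrix
open Fermat.Agent.GaloisBasics (Qbar GalQ)

namespace Fermat.Agent.LT.Final

/-- The theorem of Deligne–Serre: a normalised weight one eigenform has an irreducible complex
Galois representation of finite image, unramified away from the level, with trace `a_p` and
determinant `ε(p)` at Frobenius. -/
def DeligneSerreWeightOne : Prop :=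
  ∀ (N : ℕ) [NeZero N] (ε : DirichletCharacter ℂ N) (f : CuspForm (Gamma1 N) 1),
    ModularFormClass.qCoeff f 1 = 1 → HasGoodHeckeRelations ε f →
    ∃ ρ : GalQ →* GL (Fin 2) ℂ, GaloisFactorsThroughFiniteLevel ρ ∧
      (Deformation.matrixRepresentation ρ).IsIrreducible ∧
      ∀ p : ℕ, p.Prime → ¬ p ∣ N →
        ∀ A : ValuationSubring Qbar, A.LiesOverPrime p →
          (∀ σ ∈ A.inertiaSubgroupIn ℚ, ρ σ = 1) ∧
          ∀ σ : GalQ, A.IsFrobeniusAt σ p →
            ((ρ σ : GL (Fin 2) ℂ) : Matrix (Fin 2) (Fin 2) ℂ).trace = ModularFormClass.qCoeff f p ∧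
            ((ρ σ : GL (Fin 2) ℂ) : Matrix (Fin 2) (Fin 2) ℂ).det = ε (p : ZMod N)

/-- A continuous homomorphism to `GL₂(𝔽₃)` factors through a finite level. -/
theorem factorsThroughFiniteLevel_of_continuous {ρ : GalQ →* GF3} (hρ : Continuous ρ) :
    GaloisFactorsThroughFiniteLevel ρ := by
  have : DiscreteTopology GF3 := inferInstance
  have h : (ρ.ker : Set GalQ) ∈ nhds (1 : GalQ) :=
    ((isOpen_discrete {(1 : GF3)}).preimage hρ).mem_nhds (map_one ρ)
  obtain ⟨L, hL, hsub⟩ := (krullTopology_mem_nhds_one_iff ℚ Qbar _).mp h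
  exact ⟨L, hL, fun σ hσ => hsub ((L.mem_fixingSubgroup_iff σ).mpr hσ)⟩

/-- A complex matrix of finite order with trace `2` is the identity. -/
theorem eq_one_of_trace_eq_two {A : Matrix (Fin 2) (Fin 2) ℂ} {m : ℕ} (hm : m ≠ 0)
    (hA : A ^ m = 1) (htr : A.trace = 2) : A = 1 := by
  -- every eigenvalue is a root of unity
  have hroot : ∀ z : ℂ, z ^ 2 - A.trace * z + A.det = 0 → z ^ m = 1 := by
    intro z hz
    have h0 : (A - z • 1).det = 0 := by
      rw [← hz, det_fin_two, det_fin_two, trace_fin_two]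
      simp
      ring
    obtain ⟨v, hv, hv0⟩ := exists_mulVec_eq_zero_iff.mpr h0
    rw [sub_mulVec, smul_mulVec, one_mulVec, sub_eq_zero] at hv0
    have hk : ∀ k : ℕ, A ^ k *ᵥ v = z ^ k • v := by
      intro k
      induction k with
      | zero => simp
      | succ k ih => rw [pow_succ, ← mulVec_mulVec, hv0, mulVec_smul, ih, smul_smul, pow_succ']
    have h := hk m
    rw [hA, one_mulVec] at h
    have h' : (1 - z ^ m) • v = 0 := by rw [sub_smul, one_smul, ← h, sub_self]
    exact (sub_eq_zero.mp ((smul_eq_zero.mp h').resolve_right hv)).symm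
  obtain ⟨w, hw⟩ := IsAlgClosed.exists_eq_mul_self (1 - A.det)
  rw [htr] at hroot
  have h1 : ‖(1 : ℂ) + w‖ = 1 :=
    Complex.norm_eq_one_of_pow_eq_one (hroot _ (by linear_combination -hw)) hm
  have h2 : ‖(1 : ℂ) - w‖ = 1 :=
    Complex.norm_eq_one_of_pow_eq_one (hroot _ (by linear_combination -hw)) hm
  have hw0 : w = 0 := by
    have e1 := Complex.sq_norm (1 + w)
    have e2 := Complex.sq_norm (1 - w)
    rw [h1, Complex.normSq_apply] at e1
    rw [h2, Complex.normSq_apply] at e2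
    simp at e1 e2
    apply Complex.ext <;> simp <;> nlinarith [sq_nonneg w.re, sq_nonneg w.im]
  have hdet : A.det = 1 := by rw [hw0] at hw; linear_combination -hw
  -- `A = 1 + B` with `B² = 0`
  set B := A - 1 with hB
  have hBB : B * B = 0 := by
    rw [trace_fin_two] at htr
    rw [det_fin_two] at hdet
    ext i j
    fin_cases i <;> fin_cases j <;>
      simp [hB, mul_apply, Fin.sum_univ_two, one_apply]
    · linear_combination (A 0 0) * htr - hdet - htr + htr
    · linear_combination (A 0 1) * htr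
    · linear_combination (A 1 0) * htr
    · linear_combination (A 1 1) * htr - hdet
  have hk : ∀ k : ℕ, A ^ k = 1 + (k : ℂ) • B := by
    intro k
    induction k with
    | zero => simp
    | succ k ih =>
      rw [pow_succ, ih, show A = 1 + B by rw [hB]; abel, mul_add, mul_one, add_mul, one_mul,
        smul_mul_assoc, hBB, smul_zero, add_zero]
      push_cast
      rw [add_smul, one_smul]
      abel
  have h := hk m
  rw [hA, left_eq_add, smul_eq_zero, Nat.cast_eq_zero] at h
  have h' := h.resolve_left hm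
  rwa [hB, sub_eq_zero] at h'

theorem eq_neg_one_of_trace_eq_neg_two {A : Matrix (Fin 2) (Fin 2) ℂ} {m : ℕ} (hm : m ≠ 0)
    (hA : A ^ m = 1) (htr : A.trace = -2) : A = -1 := by
  have h : -A = 1 := eq_one_of_trace_eq_two (m := 2 * m) (by omega)
    (by rw [pow_mul, neg_sq, ← pow_mul, mul_comm, pow_mul, hA, one_pow])
    (by rw [trace_neg, htr, neg_neg])
  rw [← h, neg_neg]

/-- The units of `ℤ[√-2]` are `±1`. -/
theorem isUnit_zsqrtd_neg_two {x : ℤ√(-2)} (h : IsUnit x) : x = 1 ∨ x = -1 := by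
  have hn := (Zsqrtd.norm_eq_one_iff' (by norm_num) x).mpr h
  rw [Zsqrtd.norm_def] at hn
  have him : x.im = 0 := by nlinarith [mul_self_nonneg x.re, mul_self_nonneg x.im]
  rw [him] at hn
  rcases mul_self_eq_one_iff.mp (by linarith : x.re * x.re = 1) with hre | hre
  · exact Or.inl (Zsqrtd.ext hre him)
  · exact Or.inr (Zsqrtd.ext (by simp [hre]) (by simp [him]))

theorem zsqrtd_neg_two_eq_zero {x : ℤ√(-2)} (h : x.norm = 0) : x = 0 := by
  rw [Zsqrtd.norm_def] at h
  have h1 : x.re * x.re = 0 := by nlinarith [mul_self_nonneg x.re, mul_self_nonneg x.im]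
  have h2 : x.im * x.im = 0 := by nlinarith [mul_self_nonneg x.re, mul_self_nonneg x.im]
  exact Zsqrtd.ext (by simpa using h1) (by simpa using h2)

/-- `ℤ[√-2]` has no zero divisors. -/
theorem zsqrtd_neg_two_mul_eq_zero {x y : ℤ√(-2)} (h : x * y = 0) (hx : x ≠ 0) : y = 0 := by
  have h' := congrArg Zsqrtd.norm h
  rw [Zsqrtd.norm_mul, Zsqrtd.norm_zero, mul_eq_zero] at h'
  exact zsqrtd_neg_two_eq_zero (h'.resolve_left fun hn => hx (zsqrtd_neg_two_eq_zero hn))

/-- Ring maps from `ℤ[√-2]` to `ℂ` are injective. -/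
theorem injective_of_sqrt_neg_two (ι : ℤ√(-2) →+* ℂ) : Function.Injective ι := by
  rw [injective_iff_map_eq_zero]
  intro x hx
  have h : ι (x * star x) = 0 := by rw [map_mul, hx, zero_mul]
  rw [← Zsqrtd.norm_eq_mul_conj, map_intCast, Int.cast_eq_zero] at h
  exact zsqrtd_neg_two_eq_zero h

section lift

variable {Ψ : GF3 →* GL (Fin 2) (ℤ√(-2))}
  (hΨ : ∀ g, Matrix.GeneralLinearGroup.map FLT.ExplicitLift.red (Ψ g) = g)

include hΨ

/-- The lift sends `-1` to `-1`. -/
theorem lift_neg_one : Ψ (-1) = -1 := by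
  set Z : Matrix (Fin 2) (Fin 2) (ℤ√(-2)) := (Ψ (-1) : GL (Fin 2) (ℤ√(-2))).1 with hZ
  have h2 : (Z - 1) * (Z + 1) = 0 := by
    have h : Ψ (-1) * Ψ (-1) = 1 := by rw [← map_mul, neg_one_mul, neg_neg, map_one]
    have h' : Z * Z = 1 := congrArg Units.val h
    rw [mul_add, sub_mul, sub_mul, mul_one, one_mul, h', mul_one]
    abel
  have hred : (FLT.ExplicitLift.red).mapMatrix Z = -1 := by
    have := congrArg Units.val (hΨ (-1))
    rwa [Units.val_neg, Units.val_one] at this
  have hdet : FLT.ExplicitLift.red (Z - 1).det ≠ 0 := by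
    rw [RingHom.map_det, map_sub, map_one, hred]
    decide
  have hdet' : (Z - 1).det ≠ 0 := fun h => hdet (by rw [h, map_zero])
  have h3 := congrArg ((Z - 1).adjugate * ·) h2
  simp only [mul_zero, ← mul_assoc, adjugate_mul, smul_mul_assoc, one_mul] at h3
  have h4 : Z + 1 = 0 := by
    ext i j <;>
      · have h5 := congrFun (congrFun h3 i) j
        rw [Matrix.smul_apply, smul_eq_mul, Matrix.zero_apply] at h5
        simp [zsqrtd_neg_two_mul_eq_zero h5 hdet']
  apply Units.ext
  rw [Units.val_neg, Units.val_one, ← hZ]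
  exact eq_neg_of_add_eq_zero_left h4

/-- The determinant of the lift is the sign of the determinant. -/
theorem det_lift (g : GF3) :
    (Ψ g : Matrix (Fin 2) (Fin 2) (ℤ√(-2))).det =
      if Matrix.GeneralLinearGroup.det g = 1 then 1 else -1 := by
  have hu : IsUnit (Ψ g : Matrix (Fin 2) (Fin 2) (ℤ√(-2))).det :=
    (Matrix.isUnit_iff_isUnit_det _).mp (Units.isUnit _)
  have hred : FLT.ExplicitLift.red (Ψ g : Matrix (Fin 2) (Fin 2) (ℤ√(-2))).det =
      ((Matrix.GeneralLinearGroup.det g : (ZMod 3)ˣ) : ZMod 3) := by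
    rw [RingHom.map_det, Matrix.GeneralLinearGroup.val_det_apply]
    exact congrArg Matrix.det (congrArg Units.val (hΨ g))
  rcases isUnit_zsqrtd_neg_two hu with h | h <;> rw [h] at hred ⊢
  · rw [map_one] at hred
    rw [if_pos (Units.ext hred.symm)]
  · rw [map_neg, map_one] at hred
    rw [if_neg fun h1 => absurd (hred.trans (by rw [h1, Units.val_one])) (by decide)]

end lift

variable {N : ℕ} {ρ : GalQ →* GF3} {Ψ : GF3 →* GL (Fin 2) (ℤ√(-2))}

/-- The determinant of Frobenius at `p` is `χ₋₃(p)`. -/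
theorem det_frobenius (hdet : ∀ σ, Matrix.GeneralLinearGroup.det (ρ σ) = modThreeCyclotomicChar σ)
    {A : ValuationSubring Qbar} {p : ℕ} (hp : p.Prime) (h3 : ¬ p ∣ 3) (hA : A.LiesOverPrime p)
    {σ : GalQ} (hσ : A.IsFrobeniusAt σ p) :
    (if Matrix.GeneralLinearGroup.det (ρ σ) = 1 then (1 : ℤ) else -1) = chiNegThree p := by
  have h := GaloisBasics.modularCyclotomicCharacter_frobenius hA hp
    (IsAlgClosed.card_rootsOfUnity_eq Qbar 3) h3 hσ
  rw [← modThreeCyclotomicChar_apply, ← hdet σ] at h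
  have hmod : p % 3 = 1 ∨ p % 3 = 2 := by
    have : p % 3 ≠ 0 := fun h0 => h3 (by
      rcases hp.eq_one_or_self_of_dvd 3 (Nat.dvd_of_mod_eq_zero h0) with e | e
      · omega
      · exact e ▸ dvd_rfl)
    omega
  rw [← ZMod.natCast_mod p 3] at h
  rcases hmod with e | e
  · rw [e] at h
    rw [if_pos (Units.ext (by simpa using h)), chiNegThree, if_pos e]
  · rw [e] at h
    rw [if_neg (fun h1 => by rw [h1] at h; exact absurd h (by decide)), chiNegThree,
      if_neg (by omega), if_pos e]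

/-- **The comparison.** -/
theorem coeff_eq_trace_or_twist (h48 : DeligneSerreWeightOne) (hρ : Continuous ρ)
    (hsurj : Function.Surjective ρ)
    (hdet : ∀ σ, Matrix.GeneralLinearGroup.det (ρ σ) = modThreeCyclotomicChar σ)
    (hΨ : ∀ g, Matrix.GeneralLinearGroup.map FLT.ExplicitLift.red (Ψ g) = g)
    (hdata : HasSplitWeightOneForm ρ Ψ N) :
    ∃ (ι : ℤ√(-2) →+* ℂ) (ε : DirichletCharacter ℂ N) (f : CuspForm (Gamma1 N) 1) (s : ℤ),
      (s = 1 ∨ s = -1) ∧ ModularFormClass.qCoeff f 1 = 1 ∧ HasGoodHeckeRelations ε f ∧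
      ∀ p : ℕ, p.Prime → ¬ p ∣ 3 * N → ε (p : ZMod N) = (chiNegThree p : ℂ) ∧
        ∀ A : ValuationSubring Qbar, A.LiesOverPrime p → ∀ σ : GalQ, A.IsFrobeniusAt σ p →
          ModularFormClass.qCoeff f p =
            ((if chiNegThree p = 1 then 1 else s : ℤ) : ℂ) *
              ι (Ψ (ρ σ) : Matrix (Fin 2) (Fin 2) (ℤ√(-2))).trace := by
  obtain ⟨hN, ι, ε, f, T, hf, hT, hsplit⟩ := hdata
  have : NeZero N := ⟨hN.ne'⟩
  obtain ⟨r, ⟨L₁, hL₁, hr⟩, -, hdata'⟩ := h48 N ε f hf hT
  obtain ⟨L₂, hL₂, hρL⟩ := factorsThroughFiniteLevel_of_continuous hρ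
  set L : IntermediateField ℚ Qbar := L₁ ⊔ L₂
  set P : GF3 →* GL (Fin 2) ℂ := (Matrix.GeneralLinearGroup.map ι).comp Ψ with hP
  -- over `±1` the representation is `±1`
  have hpm : ∀ z : GF3, (z = 1 ∨ z = -1) → ∀ σ : GalQ, ρ σ = z → r σ = P z := by
    intro z hz σ hσ
    obtain ⟨p, hp, hpS, hI, A, hA, φ, hφ, m, k, a, hm, hkm, hσm, hk, ha⟩ :=
      Chebotarev.exists_isFrobeniusAt_pow L σ (T ∪ (3 * N).primeFactors)
    have hrL : ∀ {g h : GalQ}, (∀ x ∈ L, g x = h x) → r g = r h := fun e =>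
      Chebotarev.map_eq_of_eqOn hr fun x hx => e x ((le_sup_left : L₁ ≤ L) hx)
    have hρL' : ∀ {g h : GalQ}, (∀ x ∈ L, g x = h x) → ρ g = ρ h := fun e =>
      Chebotarev.map_eq_of_eqOn hρL fun x hx => e x ((le_sup_right : L₂ ≤ L) hx)
    have hp3N : ¬ p ∣ 3 * N := fun hd => hpS (Finset.mem_union_right _
      (Nat.mem_primeFactors.mpr ⟨hp, hd, by positivity⟩))
    have hφz : ρ φ = z ^ k := by rw [hρL' hk, map_pow, hσ]
    have hza : z = (z ^ k) ^ a := by rw [← hφz, ← map_pow, ← hρL' ha, hσ]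
    have hzk : z ^ k = z := by
      rcases hz with rfl | rfl
      · exact one_pow _
      · rcases Nat.even_or_odd k with he | ho
        · rw [he.neg_one_pow, one_pow] at hza
          exact absurd (congrArg Units.val hza) (by decide)
        · exact ho.neg_one_pow
    rw [hzk] at hφz hza
    have hQ : InQuaternion (ρ φ) := by
      rw [hφz]
      rcases hz with rfl | rfl
      · exact ⟨map_one _, one_pow _⟩
      · exact ⟨by apply Units.ext; decide, by apply Units.ext; decide⟩
    have htr := ((hdata' p hp (fun hd => hp3N (hd.mul_left 3)) A hA).2 φ hφ).1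
    have hin : ∀ τ ∈ A.inertiaSubgroupIn ℚ, ρ τ = 1 := fun τ hτ => by
      rw [← map_one ρ]
      exact hρL' fun x hx => by rw [hI A hA τ hτ x hx]; rfl
    rw [hsplit p (hp) (fun h => hpS (Finset.mem_union_left _ h)) hp3N A hA hin φ hφ hQ, hφz] at htr
    -- finite order
    have hfin : (r φ : Matrix (Fin 2) (Fin 2) ℂ) ^ m = 1 := by
      have hsm : r σ ^ m = 1 := by
        rw [← map_pow, ← map_one r]
        exact hrL fun x hx => by rw [hσm x hx]; rfl
      rw [← Units.val_pow_eq_pow_val, hrL hk, map_pow, ← pow_mul, mul_comm, pow_mul, hsm, one_pow,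
        Units.val_one]
    have hrz : r φ = P z := by
      apply Units.ext
      have hval : (P z : Matrix (Fin 2) (Fin 2) ℂ) =
          (Ψ z : Matrix (Fin 2) (Fin 2) (ℤ√(-2))).map ι := rfl
      rcases hz with rfl | rfl
      · rw [map_one, Units.val_one]
        refine eq_one_of_trace_eq_two hm.ne' hfin (htr.trans ?_)
        simp [map_ofNat]
      · rw [hval, lift_neg_one hΨ, Units.val_neg, Units.val_one, ← RingHom.mapMatrix_apply,
          map_neg, map_one]
        refine eq_neg_one_of_trace_eq_neg_two hm.ne' hfin (htr.trans ?_)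
        rw [lift_neg_one hΨ]
        simp [map_ofNat]
    rw [hrL ha, map_pow, hrz, ← map_pow, ← hza]
  -- so it factors through `GL₂(𝔽₃)`
  choose sec hsec using hsurj
  have hfac : ∀ σ τ : GalQ, ρ σ = ρ τ → r σ = r τ := by
    intro σ τ h
    have := hpm 1 (Or.inl rfl) (τ⁻¹ * σ) (by rw [map_mul, map_inv, h, inv_mul_cancel])
    rwa [map_one, map_mul, map_inv, inv_mul_eq_one, eq_comm] at this
  let R : GF3 →* GL (Fin 2) ℂ :=
    { toFun := fun g => r (sec g)
      map_one' := by rw [← map_one r]; exact hfac _ _ (by rw [hsec, map_one])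
      map_mul' := fun g h => by
        rw [← map_mul]; exact hfac _ _ (by rw [hsec, map_mul, hsec, hsec]) }
  have hP1 : P (-1) = -1 := by
    apply Units.ext
    rw [hP, MonoidHom.comp_apply, lift_neg_one hΨ]
    change ((-1 : GL (Fin 2) (ℤ√(-2))) : Matrix (Fin 2) (Fin 2) (ℤ√(-2))).map ι = _
    rw [Units.val_neg, Units.val_one, ← RingHom.mapMatrix_apply, map_neg, map_one, Units.val_neg,
      Units.val_one]
  have hR1 : R (-1) = -1 := (hpm (-1) (Or.inr rfl) _ (hsec _)).trans hP1
  obtain ⟨s, hs, hcomp⟩ := eq_or_eq_twist R P hR1 hP1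
  obtain ⟨s', hs', rfl⟩ : ∃ s' : ℤ, (s' = 1 ∨ s' = -1) ∧ (s' : ℂ) = s := by
    rcases hs with rfl | rfl
    · exact ⟨1, Or.inl rfl, by simp⟩
    · exact ⟨-1, Or.inr rfl, by simp⟩
  refine ⟨ι, ε, f, s', hs', hf, hT, fun p hp hp3N => ?_⟩
  have hp3 : ¬ p ∣ 3 := fun h => hp3N (h.mul_right N)
  have hpN : ¬ p ∣ N := fun h => hp3N (h.mul_left 3)
  have key : ∀ A : ValuationSubring Qbar, A.LiesOverPrime p → ∀ σ : GalQ, A.IsFrobeniusAt σ p →
      ε (p : ZMod N) = (chiNegThree p : ℂ) ∧ ModularFormClass.qCoeff f p =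
          ((if chiNegThree p = 1 then 1 else s' : ℤ) : ℂ) *
            ι (Ψ (ρ σ) : Matrix (Fin 2) (Fin 2) (ℤ√(-2))).trace := by
    intro A hA σ hσ
    obtain ⟨htr, hd⟩ := (hdata' p hp hpN A hA).2 σ hσ
    rw [show r σ = R (ρ σ) from hfac _ _ (hsec _).symm] at htr hd
    rw [(hcomp (ρ σ)).2] at hd
    rw [(hcomp (ρ σ)).1] at htr
    have hchi := det_frobenius hdet hp hp3 hA hσ
    refine ⟨?_, ?_⟩
    · rw [← hd, ← hchi]
      change ((Ψ (ρ σ) : Matrix (Fin 2) (Fin 2) (ℤ√(-2))).map ι).det = _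
      rw [← RingHom.mapMatrix_apply, ← RingHom.map_det, det_lift hΨ]
      split_ifs <;> simp
    · rw [← htr, ← hchi]
      have e : (P (ρ σ) : Matrix (Fin 2) (Fin 2) ℂ).trace =
          ι (Ψ (ρ σ) : Matrix (Fin 2) (Fin 2) (ℤ√(-2))).trace := (AddMonoidHom.map_trace ι _).symm
      rw [e]
      by_cases hc : Matrix.GeneralLinearGroup.det (ρ σ) = 1
      · simp [if_pos hc]
      · simp [if_neg hc]
  refine ⟨?_, fun A hA σ hσ => (key A hA σ hσ).2⟩
  obtain ⟨A, hA⟩ := GaloisBasics.exists_liesOverPrime hp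
  obtain ⟨σ, hσ⟩ := GaloisBasics.exists_isFrobeniusAt hA hp
  exact (key A hA σ hσ).1

end Fermat.Agent.LT.Final

end
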