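import Fermat.Prelude.Def_LanglandsTunnell_WeightOneRealizationCarriers
import Fermat.Agent.LTReduce.Basic
import Fermat.Agent.WeightOne.Nebentypus
import Fermat.Agent.LT.Final.Galois
import Fermat.Agent.LT.Final.Twist

/-!
# The eigensystem of a split weight one form

From `HasSplitWeightOneForm ρ Ψ N` and the theorem of Deligne–Serre: a weight one form of level
`finalLevel N`, with character `χ₋₃`, whose expansion is an eigensystem with values in `ℤ[√-2]`
and traces `Ψ ∘ ρ`.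
-/

set_option autoImplicit false

noncomputable section

open CongruenceSubgroup Matrix.SpecialLinearGroup EisensteinWeightOne ModularFormClass
open WeierstrassCurve
open Fermat.Agent.GaloisBasics (Qbar GalQ)
open scoped MatrixGroups ModularForm

namespace Fermat.Agent.LT.Final

/-- The level after removing the coefficients at the bad primes. -/
def finalLevel (N : ℕ) : ℕ := (N.lcm 9).lcm ((∏ q ∈ N.primeFactors, q) ^ 2)

/-- The final level is positive. -/
theorem finalLevel_pos {N : ℕ} (hN : 0 < N) : 0 < finalLevel N := by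
  refine Nat.lcm_pos (Nat.lcm_pos hN (by norm_num)) (pow_pos ?_ _)
  exact Finset.prod_pos fun q hq => (Nat.prime_of_mem_primeFactors hq).pos

/-- `N` divides the final level. -/
theorem dvd_finalLevel (N : ℕ) : N ∣ finalLevel N :=
  (Nat.dvd_lcm_left N 9).trans (Nat.dvd_lcm_left _ _)

/-- `9` divides the final level. -/
theorem nine_dvd_finalLevel (N : ℕ) : 9 ∣ finalLevel N :=
  (Nat.dvd_lcm_right N 9).trans (Nat.dvd_lcm_left _ _)

/-- A prime dividing the final level divides `3 N`. -/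
theorem dvd_of_prime_dvd_finalLevel {N p : ℕ} (hp : p.Prime) (h : p ∣ finalLevel N) :
    p ∣ 3 * N := by
  rcases (hp.dvd_mul.mp (h.trans (Nat.lcm_dvd_mul _ _))) with h | h
  · rcases hp.dvd_mul.mp (h.trans (Nat.lcm_dvd_mul _ _)) with h | h
    · exact h.mul_left 3
    · have h3 : p ∣ 3 := hp.dvd_of_dvd_pow (show p ∣ 3 ^ 2 from h)
      exact h3.mul_right N
  · exact ((hp.dvd_of_dvd_pow h).trans (Nat.prod_primeFactors_dvd N)).mul_left 3

/-- A prime `p` dividing the final level has `p ^ 2` and `3 p` dividing it. -/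
theorem prime_sq_dvd_finalLevel {N p : ℕ} (hN : N ≠ 0) (hp : p.Prime) (h : p ∣ finalLevel N) :
    p ^ 2 ∣ finalLevel N ∧ 3 * p ∣ finalLevel N := by
  have h9 := nine_dvd_finalLevel N
  by_cases h3 : p = 3
  · subst h3
    exact ⟨h9, h9⟩
  have hpN : p ∣ N := (hp.dvd_mul.mp (dvd_of_prime_dvd_finalLevel hp h)).resolve_left fun h' =>
    h3 ((Nat.prime_dvd_prime_iff_eq hp Nat.prime_three).mp h')
  refine ⟨(pow_dvd_pow_of_dvd (Finset.dvd_prod_of_mem _
    (Nat.mem_primeFactors.mpr ⟨hp, hpN, hN⟩)) 2).trans (Nat.dvd_lcm_right _ _), ?_⟩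
  exact ((Nat.coprime_primes Nat.prime_three hp).mpr (Ne.symm h3)).mul_dvd_of_dvd_of_dvd
    ((dvd_pow_self 3 two_ne_zero).trans h9) h

/-- Away from `3`, the final level is cube-free where `N` is. -/
theorem finalLevel_not_cube_dvd {N q : ℕ} (hq : q.Prime) (hq3 : q ≠ 3)
    (h : ¬ q ^ 3 ∣ N) : ¬ q ^ 3 ∣ finalLevel N := by
  intro hd
  have hN0 : N ≠ 0 := fun h0 => h (h0 ▸ dvd_zero _)
  set r := ∏ p ∈ N.primeFactors, p with hr
  have hr0 : r ≠ 0 :=
    Finset.prod_ne_zero_iff.mpr fun p hp => (Nat.prime_of_mem_primeFactors hp).ne_zero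
  have hM0 : finalLevel N ≠ 0 := (finalLevel_pos (Nat.pos_of_ne_zero hN0)).ne'
  rw [hq.pow_dvd_iff_le_factorization hM0] at hd
  rw [hq.pow_dvd_iff_le_factorization hN0] at h
  rw [finalLevel, ← hr, Nat.factorization_lcm (Nat.lcm_ne_zero hN0 (by norm_num))
    (pow_ne_zero 2 hr0), Nat.factorization_lcm hN0 (by norm_num), Finsupp.sup_apply,
    Finsupp.sup_apply, Nat.factorization_pow, Finsupp.smul_apply, smul_eq_mul] at hd
  have h9 : (9 : ℕ).factorization q = 0 := Nat.factorization_eq_zero_of_not_dvd fun h' =>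
    hq3 ((Nat.prime_dvd_prime_iff_eq hq Nat.prime_three).mp
      (hq.dvd_of_dvd_pow (show q ∣ 3 ^ 2 from h')))
  have hr1 : r.factorization q ≤ 1 := Squarefree.natFactorization_le_one q
    (Finset.squarefree_prod_of_pairwise_isCoprime
      (fun a ha b hb hab => Nat.coprime_iff_isRelPrime.mp
        ((Nat.coprime_primes (Nat.prime_of_mem_primeFactors ha)
          (Nat.prime_of_mem_primeFactors hb)).mpr hab))
      fun p hp => (Nat.prime_of_mem_primeFactors hp).squarefree)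
  rw [h9] at hd
  simp only [le_sup_iff] at hd
  omega

/-- A form on `Γ₁(N)` as a form on `Γ₁(M)`, for `N ∣ M`. -/
def raiseGamma1 {N M : ℕ} [NeZero N] [NeZero M] (h : N ∣ M) (f : CuspForm (Gamma1 N) 1) :
    CuspForm (Gamma1 M) 1 where
  toFun := ⇑f
  slash_action_eq' γ hγ := by
    obtain ⟨A, hA, rfl⟩ := Subgroup.mem_map.mp hγ
    refine SlashInvariantFormClass.slash_action_eq f _ (Subgroup.mem_map.mpr ⟨A, ?_, rfl⟩)
    obtain ⟨h00, h11, h10⟩ := (Gamma1_mem M A).mp hA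
    refine (Gamma1_mem N A).mpr ⟨?_, ?_, ?_⟩
    · have := congrArg (ZMod.castHom h (ZMod N)) h00
      rwa [map_intCast, map_one] at this
    · have := congrArg (ZMod.castHom h (ZMod N)) h11
      rwa [map_intCast, map_one] at this
    · simpa using congrArg (ZMod.castHom h (ZMod N)) h10
  holo' := CuspFormClass.holo f
  zero_at_cusps' hc := CuspFormClass.zero_at_cusps f
    ((Subgroup.IsArithmetic.isCusp_iff_isCusp_SL2Z _).mpr
      ((Subgroup.IsArithmetic.isCusp_iff_isCusp_SL2Z _).mp hc))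

/-- A cusp form on `Γ₁(M)` has no constant term. -/
theorem qCoeff_zero_Gamma1 {M : ℕ} [NeZero M] {k : ℤ} (f : CuspForm (Gamma1 M) k) :
    qCoeff f 0 = 0 := by
  have : Fact (IsCusp OnePoint.infty
      (Subgroup.map (Matrix.SpecialLinearGroup.mapGL ℝ) (Gamma1 M))) :=
    ⟨Subgroup.isCusp_of_mem_strictPeriods one_pos (WeightOne.one_mem_strictPeriods_Gamma1 M)⟩
  exact CuspFormClass.qExpansion_coeff_zero f one_pos (WeightOne.one_mem_strictPeriods_Gamma1 M)

/-- Remove the coefficients at the multiples of finitely many primes. -/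
theorem exists_strip_finset {M : ℕ} [NeZero M] (f : CuspForm (Gamma1 M) 1)
    (hf : IsChiInvariant M f) (S : Finset ℕ) (hS : ∀ q ∈ S, q ≠ 0 ∧ q ^ 2 ∣ M ∧ 3 * q ∣ M) :
    ∃ F : CuspForm (Gamma1 M) 1, IsChiInvariant M F ∧
      ∀ n : ℕ, qCoeff F n = if ∃ q ∈ S, q ∣ n then 0 else qCoeff f n := by
  classical
  induction S using Finset.induction with
  | empty => exact ⟨f, hf, fun n => by simp⟩
  | insert q S hqS ih =>
    obtain ⟨F, hF, hFn⟩ := ih fun x hx => hS x (Finset.mem_insert_of_mem hx)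
    obtain ⟨hq0, hq2, h3q⟩ := hS q (Finset.mem_insert_self q S)
    obtain ⟨G, hG, hGn⟩ := exists_strip F hF hq0 hq2 h3q
    refine ⟨G, hG, fun n => ?_⟩
    rw [hGn, hFn]
    by_cases h : q ∣ n <;> simp [h]

variable {N : ℕ} {ρ : GalQ →* GF3} {Ψ : GF3 →* GL (Fin 2) (ℤ√(-2))}

/-- An eigenform whose character is `χ₋₃` at almost all primes has character `χ₋₃`. -/
theorem isChiInvariant_of_eps [NeZero N] {M : ℕ} [NeZero M] (hNM : N ∣ M) (h3 : 3 ∣ M)
    {ε : DirichletCharacter ℂ N} {f : CuspForm (Gamma1 N) 1} (hT : HasGoodHeckeRelations ε f)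
    (heps : ∀ p : ℕ, p.Prime → ¬ p ∣ 3 * N → ε (p : ZMod N) = (chiNegThree p : ℂ)) :
    IsChiInvariant M f := by
  intro γ hγ
  have hN : γ ∈ Gamma0 N := by
    rw [Gamma0_mem] at hγ ⊢
    simpa using congrArg (ZMod.castHom hNM (ZMod N)) hγ
  rw [WeightOne.slash_Gamma0_eq f hT hN]
  congr 1
  have hdet := congrArg (Int.cast : ℤ → ZMod M) γ.det_coe
  rw [Matrix.det_fin_two] at hdet
  push_cast at hdet
  rw [Gamma0_mem.mp hγ, mul_zero, sub_zero] at hdet
  obtain ⟨p, hpgt, hp, hpd⟩ := Nat.forall_exists_prime_gt_and_eq_mod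
    (IsUnit.of_mul_eq_one_right _ hdet) (3 * N)
  have hp3N : ¬ p ∣ 3 * N := fun hd => by
    have := Nat.le_of_dvd (by have := NeZero.pos N; omega) hd
    omega
  have e1 : ((γ 1 1 : ℤ) : ZMod N) = (p : ZMod N) := by
    have := congrArg (ZMod.castHom hNM (ZMod N)) hpd
    rw [map_natCast, map_intCast] at this
    exact this.symm
  have e2 : ((γ 1 1 : ℤ) : ZMod 3) = ((p : ℤ) : ZMod 3) := by
    have := congrArg (ZMod.castHom h3 (ZMod 3)) hpd
    rw [map_natCast, map_intCast] at this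
    rw [Int.cast_natCast]
    exact this.symm
  rw [e1, heps p hp hp3N, chiInt_congr e2, chiInt_natCast]

theorem chiNegThree_mul (a b : ℕ) : chiNegThree (a * b) = chiNegThree a * chiNegThree b := by
  have ha : a % 3 < 3 := Nat.mod_lt _ (by norm_num)
  have hb : b % 3 < 3 := Nat.mod_lt _ (by norm_num)
  simp only [chiNegThree, Nat.mul_mod a b 3]
  interval_cases a % 3 <;> interval_cases b % 3 <;> simp

/-- `χ₋₃` squares to one away from `3`. -/
theorem chiNegThree_sq {p : ℕ} (hp : ¬ 3 ∣ p) : chiNegThree p * chiNegThree p = 1 := by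
  have h : p % 3 = 1 ∨ p % 3 = 2 := by omega
  rcases h with h | h <;> simp [chiNegThree, h]

/-- Twisting by `χ₋₃` keeps a normalised form normalised and keeps its recursions at the primes
away from a level divisible by `9`. -/
theorem exists_twist_recursion {M : ℕ} [NeZero M] (h9 : 9 ∣ M) {f : CuspForm (Gamma1 M) 1}
    (hf : IsChiInvariant M f) (hf1 : qCoeff f 1 = 1)
    (hrel : ∀ p : ℕ, p.Prime → ¬ p ∣ M → ∀ n : ℕ,
      qCoeff f (p * n) + (chiNegThree p : ℂ) * (if p ∣ n then qCoeff f (n / p) else 0) =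
        qCoeff f p * qCoeff f n) :
    ∃ g : CuspForm (Gamma1 M) 1, IsChiInvariant M g ∧ qCoeff g 1 = 1 ∧
      (∀ p : ℕ, p.Prime → ¬ p ∣ M → ∀ n : ℕ,
        qCoeff g (p * n) + (chiNegThree p : ℂ) * (if p ∣ n then qCoeff g (n / p) else 0) =
          qCoeff g p * qCoeff g n) ∧
      ∀ n, qCoeff g n = (chiNegThree n : ℂ) * qCoeff f n := by
  obtain ⟨g, hg, hgn⟩ := exists_twist _ hf h9
  have hgn' : ∀ n, qCoeff g n = (chiNegThree n : ℂ) * qCoeff f n := hgn
  refine ⟨g, hg, ?_, fun p hp hpM n => ?_, hgn'⟩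
  · rw [hgn', hf1, mul_one]; simp [chiNegThree]
  · have h3p : ¬ 3 ∣ p := fun h => hpM (by
      rw [← (Nat.prime_dvd_prime_iff_eq Nat.prime_three hp).mp h]
      exact (dvd_pow_self 3 two_ne_zero).trans h9)
    have hsq : (chiNegThree p : ℂ) * (chiNegThree p : ℂ) = 1 := by
      exact_mod_cast chiNegThree_sq h3p
    have h0 := hrel p hp hpM n
    simp only [hgn', chiNegThree_mul, Int.cast_mul]
    split_ifs with hd
    · obtain ⟨m, rfl⟩ := hd
      rw [if_pos (dvd_mul_right p m), Nat.mul_div_cancel_left m hp.pos] at h0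
      rw [Nat.mul_div_cancel_left m hp.pos, chiNegThree_mul, Int.cast_mul]
      linear_combination ((chiNegThree p : ℂ) * (chiNegThree p : ℂ) * (chiNegThree m : ℂ)) * h0
        - (qCoeff f m * (chiNegThree p : ℂ) * (chiNegThree m : ℂ)) * hsq
    · rw [if_neg hd] at h0
      linear_combination ((chiNegThree p : ℂ) * (chiNegThree n : ℂ)) * h0

/-- Removing the coefficients at the multiples of some primes keeps the recursion at a prime not
among them. -/
theorem recursion_strip {S : Finset ℕ} (hS : ∀ q ∈ S, q.Prime) {a F : ℕ → ℂ}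
    (hF : ∀ n, F n = if ∃ q ∈ S, q ∣ n then 0 else a n) {p : ℕ} (hp : p.Prime) (hpS : p ∉ S)
    {χ : ℂ} {m : ℕ} (h : a (p * m) + χ * (if p ∣ m then a (m / p) else 0) = a p * a m) :
    F (p * m) + χ * (if p ∣ m then F (m / p) else 0) = a p * F m := by
  classical
  have hnotp : ∀ q ∈ S, ¬ q ∣ p := fun q hq h =>
    hpS ((Nat.prime_dvd_prime_iff_eq (hS q hq) hp).mp h ▸ hq)
  have hiff : (∃ q ∈ S, q ∣ p * m) ↔ ∃ q ∈ S, q ∣ m := by
    refine ⟨fun ⟨q, hq, hd⟩ => ⟨q, hq, ?_⟩, fun ⟨q, hq, hd⟩ => ⟨q, hq, hd.mul_left p⟩⟩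
    exact ((hS q hq).dvd_mul.mp hd).resolve_left (hnotp q hq)
  simp only [hF, hiff]
  by_cases hb' : ∃ q ∈ S, q ∣ m
  · simp only [if_pos hb', mul_zero]
    split_ifs with hd hq'
    · simp
    · obtain ⟨k, rfl⟩ := hd
      obtain ⟨q, hq, hqd⟩ := hb'
      rw [Nat.mul_div_cancel_left k hp.pos] at hq'
      exact absurd ⟨q, hq, ((hS q hq).dvd_mul.mp hqd).resolve_left (hnotp q hq)⟩ hq'
    · simp
  · simp only [if_neg hb']
    split_ifs with hd hq'
    · obtain ⟨q, hq, hqd⟩ := hq'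
      exact absurd ⟨q, hq, hqd.trans (Nat.div_dvd_of_dvd hd)⟩ hb'
    · rwa [if_pos hd] at h
    · rwa [if_neg hd] at h

/-- A sequence satisfying the recursions away from `M`, stripped at the primes dividing `M`, is
the image of the eigensystem with the same values at the good primes and `0` at the others. -/
theorem strip_eq_eigensystem {M : ℕ} (hM : M ≠ 0) (ι : ℤ√(-2) →+* ℂ) {a F : ℕ → ℂ}
    (ha1 : a 1 = 1) (hF0 : F 0 = 0)
    (hFn : ∀ n, F n = if ∃ q ∈ M.primeFactors, q ∣ n then 0 else a n)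
    (hrel : ∀ p : ℕ, p.Prime → ¬ p ∣ M → ∀ n : ℕ,
      a (p * n) + (chiNegThree p : ℂ) * (if p ∣ n then a (n / p) else 0) = a p * a n)
    {b : ℕ → ℤ√(-2)} (hb0 : b 0 = 0)
    (hb : FormalHecke.IsEigensystem
      (fun ℓ => if ℓ ∣ M then 0 else ((chiNegThree ℓ : ℤ) : ℤ√(-2))) b)
    (hgood : ∀ p : ℕ, p.Prime → ¬ p ∣ M → a p = ι (b p))
    (hbad : ∀ p : ℕ, p.Prime → p ∣ M → b p = 0) (n : ℕ) : F n = ι (b n) := by
  induction n using Nat.strong_induction_on with
  | _ n ih =>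
    rcases eq_or_ne n 0 with rfl | hn0
    · rw [hF0, hb0, map_zero]
    rcases eq_or_ne n 1 with rfl | hn1
    · rw [hFn, if_neg, ha1, hb.1, map_one]
      rintro ⟨q, hq, hq1⟩
      exact (Nat.prime_of_mem_primeFactors hq).ne_one (Nat.dvd_one.mp hq1)
    obtain ⟨p, hp, ⟨m, rfl⟩⟩ := Nat.exists_prime_and_dvd hn1
    have hm : m ≠ 0 := (mul_ne_zero_iff.1 hn0).2
    have hlt : m < p * m := lt_mul_of_one_lt_left (Nat.pos_of_ne_zero hm) hp.one_lt
    have hdiv : m / p < p * m := (Nat.div_le_self m p).trans_lt hlt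
    have hrec := hb.2 p hp m
    by_cases hpM : p ∣ M
    · have : b (p * m) = 0 := by
        simpa [hbad p hp hpM, if_pos hpM] using hrec
      rw [hFn, if_pos ⟨p, Nat.mem_primeFactors.mpr ⟨hp, hpM, hM⟩, dvd_mul_right p m⟩,
        this, map_zero]
    · have hFrec := recursion_strip (fun q hq => Nat.prime_of_mem_primeFactors hq) hFn hp
        (fun h => hpM (Nat.dvd_of_mem_primeFactors h)) (hrel p hp hpM m)
      rw [← sub_eq_zero]
      have hrec' := congrArg ι hrec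
      simp only [map_add, map_mul, if_neg hpM, map_intCast] at hrec'
      rw [hgood p hp hpM, ih m hlt] at hFrec
      split_ifs at hFrec hrec' with hd
      · rw [ih _ hdiv] at hFrec
        linear_combination hFrec - hrec'
      · simp only [map_zero] at hrec'
        linear_combination hFrec - hrec'

/-- **The eigensystem.** -/
theorem exists_weightOne_eigensystem (h48 : DeligneSerreWeightOne) (hρ : Continuous ρ)
    (hsurj : Function.Surjective ρ)
    (hdet : ∀ σ, Matrix.GeneralLinearGroup.det (ρ σ) = modThreeCyclotomicChar σ)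
    (hΨ : ∀ g, Matrix.GeneralLinearGroup.map FLT.ExplicitLift.red (Ψ g) = g)
    (hdata : HasSplitWeightOneForm ρ Ψ N) :
    ∃ (ι : ℤ√(-2) →+* ℂ) (b : ℕ → ℤ√(-2)) (F : CuspForm (Gamma1 (finalLevel N)) 1),
      IsChiInvariant (finalLevel N) F ∧ b 0 = 0 ∧
      FormalHecke.IsEigensystem
        (fun ℓ => if ℓ ∣ finalLevel N then 0 else ((chiNegThree ℓ : ℤ) : ℤ√(-2))) b ∧
      (∀ n, qCoeff F n = ι (b n)) ∧
      ∀ p : ℕ, p.Prime → ¬ p ∣ finalLevel N →
        ∀ A : ValuationSubring Qbar, A.LiesOverPrime p → ∀ σ : GalQ, A.IsFrobeniusAt σ p →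
          b p = (Ψ (ρ σ) : Matrix (Fin 2) (Fin 2) (ℤ√(-2))).trace := by
  classical
  have hN : 0 < N := hdata.1
  have : NeZero N := ⟨hN.ne'⟩
  set M := finalLevel N with hM
  have : NeZero M := ⟨(finalLevel_pos hN).ne'⟩
  obtain ⟨ι, ε, f, s, hs, hf, hT, hcoef⟩ := coeff_eq_trace_or_twist h48 hρ hsurj hdet hΨ hdata
  have hgood : ∀ p : ℕ, p.Prime → ¬ p ∣ M → ¬ p ∣ 3 * N := fun p hp hpM hd => hpM (by
    rcases hp.dvd_mul.mp hd with h | h
    · exact h.trans ((dvd_pow_self 3 two_ne_zero).trans (nine_dvd_finalLevel N))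
    · exact h.trans (dvd_finalLevel N))
  have h3M : 3 ∣ M := (dvd_pow_self 3 two_ne_zero).trans (nine_dvd_finalLevel N)
  have hchi : IsChiInvariant M (raiseGamma1 (dvd_finalLevel N) f) :=
    isChiInvariant_of_eps (dvd_finalLevel N) h3M hT fun p hp h => (hcoef p hp h).1
  -- untwist
  obtain ⟨f₁, hchi₁, hf₁, hrel, htr⟩ : ∃ f₁ : CuspForm (Gamma1 M) 1, IsChiInvariant M f₁ ∧
      qCoeff f₁ 1 = 1 ∧
      (∀ p : ℕ, p.Prime → ¬ p ∣ M → ∀ n : ℕ,
        qCoeff f₁ (p * n) + (chiNegThree p : ℂ) * (if p ∣ n then qCoeff f₁ (n / p) else 0) =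
          qCoeff f₁ p * qCoeff f₁ n) ∧
      ∀ p : ℕ, p.Prime → ¬ p ∣ M → ∀ A : ValuationSubring Qbar, A.LiesOverPrime p →
        ∀ σ : GalQ, A.IsFrobeniusAt σ p →
          qCoeff f₁ p = ι (Ψ (ρ σ) : Matrix (Fin 2) (Fin 2) (ℤ√(-2))).trace := by
    have hrel₀ : ∀ p : ℕ, p.Prime → ¬ p ∣ M → ∀ n : ℕ,
        qCoeff f (p * n) + (chiNegThree p : ℂ) * (if p ∣ n then qCoeff f (n / p) else 0) =
          qCoeff f p * qCoeff f n := fun p hp hpM n => by
      rw [← (hcoef p hp (hgood p hp hpM)).1]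
      exact hT p hp (fun h => hpM (h.trans (dvd_finalLevel N))) n
    rcases hs with rfl | rfl
    · refine ⟨_, hchi, hf, hrel₀, fun p hp hpM A hA σ hσ => ?_⟩
      rw [show qCoeff (⇑(raiseGamma1 (dvd_finalLevel N) f)) p = qCoeff f p from rfl,
        (hcoef p hp (hgood p hp hpM)).2 A hA σ hσ, ite_self, Int.cast_one, one_mul]
    · obtain ⟨g, hg, hg1, hgrel, hgn'⟩ :=
        exists_twist_recursion (nine_dvd_finalLevel N) hchi hf hrel₀
      refine ⟨g, hg, hg1, hgrel, fun p hp hpM A hA σ hσ => ?_⟩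
      rw [hgn', show qCoeff (⇑(raiseGamma1 (dvd_finalLevel N) f)) p = qCoeff f p from rfl,
        (hcoef p hp (hgood p hp hpM)).2 A hA σ hσ, ← mul_assoc]
      have h : p % 3 = 1 ∨ p % 3 = 2 := by
        have : p % 3 ≠ 0 := fun h0 => hpM (by
          rw [← (Nat.prime_dvd_prime_iff_eq Nat.prime_three hp).mp (Nat.dvd_of_mod_eq_zero h0)]
          exact h3M)
        omega
      rcases h with h | h <;> simp [chiNegThree, h]
  -- strip
  obtain ⟨F, hF, hFn⟩ := exists_strip_finset f₁ hchi₁ M.primeFactors fun q hq =>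
    ⟨(Nat.prime_of_mem_primeFactors hq).ne_zero,
      prime_sq_dvd_finalLevel hN.ne' (Nat.prime_of_mem_primeFactors hq)
        (Nat.dvd_of_mem_primeFactors hq)⟩
  have hsel : ∀ p : ℕ, ∃ x : ℤ√(-2), p.Prime → ¬ p ∣ M →
      qCoeff f₁ p = ι x ∧ ∀ A : ValuationSubring Qbar, A.LiesOverPrime p →
        ∀ σ : GalQ, A.IsFrobeniusAt σ p →
          x = (Ψ (ρ σ) : Matrix (Fin 2) (Fin 2) (ℤ√(-2))).trace := by
    intro p
    by_cases hp : p.Prime ∧ ¬ p ∣ M
    · obtain ⟨A, hA⟩ := GaloisBasics.exists_liesOverPrime hp.1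
      obtain ⟨σ, hσ⟩ := GaloisBasics.exists_isFrobeniusAt hA hp.1
      refine ⟨_, fun _ _ => ⟨htr p hp.1 hp.2 A hA σ hσ, fun B hB τ hτ => ?_⟩⟩
      exact injective_of_sqrt_neg_two ι ((htr p hp.1 hp.2 A hA σ hσ).symm.trans
        (htr p hp.1 hp.2 B hB τ hτ))
    · exact ⟨0, fun h1 h2 => absurd ⟨h1, h2⟩ hp⟩
  choose x hx using hsel
  set e : ℕ → ℤ√(-2) := fun ℓ => if ℓ ∣ M then 0 else ((chiNegThree ℓ : ℤ) : ℤ√(-2)) with he
  set c : ℕ → ℤ√(-2) := fun p => if p ∣ M then 0 else x p with hc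
  have hb := LTReduce.isEigensystem_ofPrimes e c
  set b := LTReduce.ofPrimes e c with hbdef
  have hbp : ∀ p : ℕ, p.Prime → b p = c p := fun p hp => LTReduce.ofPrimes_prime e c hp
  refine ⟨ι, b, F, hF, LTReduce.ofPrimes_zero e c, hb, fun n => ?_, fun p hp hpM A hA σ hσ => ?_⟩
  · refine strip_eq_eigensystem (NeZero.ne M) ι hf₁ (qCoeff_zero_Gamma1 F) hFn hrel
      (LTReduce.ofPrimes_zero e c) hb (fun p hp hpM => ?_) (fun p hp hpM => ?_) n
    · rw [show LTReduce.ofPrimes e c p = c p from hbp p hp, hc]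
      simpa only [if_neg hpM] using (hx p hp hpM).1
    · exact (hbp p hp).trans (if_pos hpM)
  · rw [hbp p hp, hc]
    simp only [if_neg hpM]
    exact (hx p hp hpM).2 A hA σ hσ

/-- The lift `Ψ ∘ ρ` is realised by a weight one form with character `χ₋₃` at almost all primes. -/
theorem exists_isWeightOneChiNegThreeRealized (h48 : DeligneSerreWeightOne) (hρ : Continuous ρ)
    (hsurj : Function.Surjective ρ)
    (hdet : ∀ σ, Matrix.GeneralLinearGroup.det (ρ σ) = modThreeCyclotomicChar σ)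
    (hΨ : ∀ g, Matrix.GeneralLinearGroup.map FLT.ExplicitLift.red (Ψ g) = g)
    (hdata : HasSplitWeightOneForm ρ Ψ N) :
    ∃ (M : ℕ) (_ : NeZero M) (b : ℕ → ℤ√(-2)),
      FormalHecke.IsEigensystem
        (fun ℓ => if ℓ ∣ M then 0 else ((chiNegThree ℓ : ℤ) : ℤ√(-2))) b ∧
      CuspForm.IsWeightOneChiNegThreeRealized M b ∧
      ∀ p : ℕ, p.Prime → ¬ p ∣ 3 * M →
        ∀ A : ValuationSubring Qbar, A.LiesOverPrime p →
          ∀ σ : GalQ, A.IsFrobeniusAt σ p →
            b p = ((Ψ (ρ σ) : GL (Fin 2) (ℤ√(-2))) : Matrix (Fin 2) (Fin 2) (ℤ√(-2))).trace := by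
  obtain ⟨ι, b, F, -, -, heig, hq, htr⟩ :=
    exists_weightOne_eigensystem h48 hρ hsurj hdet hΨ hdata
  exact ⟨finalLevel N, ⟨(finalLevel_pos hdata.1).ne'⟩, b, heig, ⟨ι, F, hq⟩,
    fun p hp hpM => htr p hp fun h => hpM (h.mul_left 3)⟩

end Fermat.Agent.LT.Final

end
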