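import Fermat.Prelude.Def_ModularForm_EisensteinChiNegThree
import Fermat.Agent.Eisenstein.GaussianSum
import Fermat.Agent.Eisenstein.P1Family

/-!
# The hexagonal theta series

`θ(τ) = ∑ exp(2πiτ(x² + xy + y²))` is of weight one for `Γ₀(3)` with character `χ₋₃` and is
congruent to `1` modulo `3`. Only `θ(τ + 1) = θ(τ)` and `θ(-1/τ) = c τ θ(τ/3)` are used: they give
an equivariant family indexed by `(ℤ/3)²`.
-/

set_option autoImplicit false

noncomputable section

open UpperHalfPlane hiding I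
open Complex CongruenceSubgroup EisensteinWeightOne
open Fermat.Agent.Eisenstein
open scoped Real MatrixGroups ModularForm

namespace Fermat.Agent.LT.Final

/-- The hexagonal form. -/
def hexQuad (v : ℤ × ℤ) : ℤ := v.1 ^ 2 + v.1 * v.2 + v.2 ^ 2

theorem hexQuad_nonneg (v : ℤ × ℤ) : 0 ≤ hexQuad v := by
  simp only [hexQuad]; nlinarith [sq_nonneg (2 * v.1 + v.2), sq_nonneg v.2]

/-- The hexagonal form with natural values. -/
def hexNat (v : ℤ × ℤ) : ℕ := (hexQuad v).toNat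

theorem hexNat_cast (v : ℤ × ℤ) : (hexNat v : ℤ) = hexQuad v :=
  Int.toNat_of_nonneg (hexQuad_nonneg v)

theorem hexNat_fibre_finite (n : ℕ) : (hexNat ⁻¹' {n}).Finite := by
  refine ((Set.finite_Icc (-(3 * (n : ℤ))) (3 * n)).prod
    (Set.finite_Icc (-(3 * (n : ℤ))) (3 * n))).subset fun v hv => ?_
  have h : hexQuad v = n := by rw [← hexNat_cast, (hv : hexNat v = n)]
  simp only [hexQuad] at h
  simp only [Set.mem_prod, Set.mem_Icc]
  refine ⟨⟨?_, ?_⟩, ?_, ?_⟩ <;>
    nlinarith [Int.le_self_sq v.1, Int.le_self_sq (-v.1), Int.le_self_sq v.2,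
      Int.le_self_sq (-v.2), sq_nonneg (v.1 + 2 * v.2), sq_nonneg (2 * v.1 + v.2)]

/-- The vectors of norm `n`. -/
def hexReps (n : ℕ) : Finset (ℤ × ℤ) := (hexNat_fibre_finite n).toFinset

theorem mem_hexReps {n : ℕ} {v : ℤ × ℤ} : v ∈ hexReps n ↔ hexNat v = n := by simp [hexReps]

/-- Only the origin has norm `0`. -/
theorem hexReps_zero : hexReps 0 = {0} := by
  ext v
  rw [mem_hexReps, Finset.mem_singleton]
  refine ⟨fun h => ?_, fun h => by subst h; rfl⟩
  have h' : hexQuad v = 0 := by rw [← hexNat_cast, h]; rfl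
  simp only [hexQuad] at h'
  have h2 : v.2 ^ 2 = 0 := by nlinarith [sq_nonneg (2 * v.1 + v.2)]
  have e2 : v.2 = 0 := by simpa using h2
  rw [e2] at h'
  exact Prod.ext (by simpa using h') e2

/-- The rotation of order three. -/
def hexRot : Equiv.Perm (ℤ × ℤ) where
  toFun v := (v.2, -v.1 - v.2)
  invFun v := (-v.1 - v.2, v.1)
  left_inv v := Prod.ext (by simp only; ring) rfl
  right_inv v := by ext <;> simp

/-- `θ` is congruent to `1` modulo `3`. -/
theorem three_dvd_card_hexReps {n : ℕ} (hn : n ≠ 0) : 3 ∣ (hexReps n).card := by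
  have hmem : ∀ v, v ∈ hexReps n ↔ hexRot v ∈ hexReps n := fun v => by
    rw [mem_hexReps, mem_hexReps, hexNat, hexNat,
      show hexQuad (hexRot v) = hexQuad v by simp [hexQuad, hexRot]; ring]
  set σ : Equiv.Perm (hexReps n) := hexRot.subtypePerm fun v => (hmem v).symm
  have h3 : σ ^ 3 ^ 1 = 1 := by
    apply Equiv.ext
    rintro ⟨⟨x, y⟩, hv⟩
    apply Subtype.ext
    have h : (hexRot ^ 3) (x, y) = (x, y) := by
      simp [pow_succ, hexRot, Equiv.Perm.mul_apply]
      constructor <;> ring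
    simpa [σ, Equiv.Perm.subtypePerm_pow] using h
  have := Fact.mk Nat.prime_three
  have hfix : σ.supportᶜ = (∅ : Finset (hexReps n)) := by
    refine Finset.eq_empty_of_forall_notMem fun v hv => ?_
    rw [Finset.mem_compl, Equiv.Perm.mem_support, not_not] at hv
    obtain ⟨⟨x, y⟩, hxy⟩ := v
    have hv' := congrArg Subtype.val hv
    simp [σ, hexRot] at hv'
    obtain ⟨h1, h2⟩ := hv'
    have hx : x = 0 := by omega
    have hy : y = 0 := by omega
    subst hx hy
    exact hn (by simpa [hexNat, hexQuad] using (mem_hexReps.mp hxy).symm)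
  have h := Equiv.Perm.card_compl_support_modEq h3
  rw [hfix, Finset.card_empty, Fintype.card_coe] at h
  exact Nat.modEq_zero_iff_dvd.mp h.symm

/-- The theta series. -/
def hexTheta (τ : ℍ) : ℂ := ∑' v : ℤ × ℤ, cexp (2 * π * I * (τ : ℂ) * (hexQuad v : ℂ))

/-- The coordinates in which the form is diagonal. -/
def hexCoords (v : ℤ × ℤ) : ℤ × ℤ := (2 * v.1 + v.2, v.2)

theorem hexCoords_injective : Function.Injective hexCoords := by
  rintro ⟨a, b⟩ ⟨c, d⟩ h
  simp [hexCoords] at h ⊢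
  omega

theorem gauss1_hexCoords (τ : ℂ) (v : ℤ × ℤ) :
    gauss1 (1 / 4) τ ((hexCoords v).1 : ℂ) * gauss1 (3 / 4) τ ((hexCoords v).2 : ℂ) =
      cexp (2 * π * I * τ * (hexQuad v : ℂ)) := by
  simp only [gauss1, ← Complex.exp_add, hexCoords, hexQuad]
  congr 1
  push_cast
  ring

theorem summable_hexTerm {τ : ℂ} (hτ : 0 < τ.im) :
    Summable fun v : ℤ × ℤ => ‖cexp (2 * π * I * τ * (hexQuad v : ℂ))‖ := by
  have h := (Summable.mul_norm (f := fun k : ℤ => gauss1 (1 / 4) τ (k : ℂ))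
    (g := fun k : ℤ => gauss1 (3 / 4) τ (k : ℂ)) (summable_norm_gauss1 (by norm_num) hτ)
    (summable_norm_gauss1 (by norm_num) hτ)).comp_injective hexCoords_injective
  refine h.congr fun v => ?_
  rw [Function.comp_apply, gauss1_hexCoords]

/-- The expansion of the theta series. -/
def hexSeries : PowerSeries ℂ := PowerSeries.mk fun n => ((hexReps n).card : ℂ)

/-- The expansion of the hexagonal theta function. -/
theorem hasQ_hexTheta : HasQ 1 hexTheta hexSeries := fun τ => by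
  have h := (summable_hexTerm τ.im_pos).of_norm.hasSum.tsum_fiberwise hexNat
  refine h.congr_fun fun n => ?_
  rw [hexSeries, PowerSeries.coeff_mk]
  have hval : ∀ v ∈ hexNat ⁻¹' {n}, cexp (2 * π * I * (τ : ℂ) * (hexQuad v : ℂ)) =
      Function.Periodic.qParam ((1 : ℕ) : ℝ) (τ : ℂ) ^ n := by
    intro v hv
    rw [← hexNat_cast v, (hv : hexNat v = n), Function.Periodic.qParam, ← Complex.exp_nat_mul]
    congr 1
    push_cast
    ring
  rw [tsum_congr (fun v : (hexNat ⁻¹' {n} : Set (ℤ × ℤ)) => hval v v.2), tsum_const,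
    Nat.card_coe_set_eq, Set.ncard_eq_toFinset_card _ (hexNat_fibre_finite n), hexReps, nsmul_eq_mul]

/-- The reassembly of the two dual sums. -/
def hexGlue : Bool × (ℤ × ℤ) ≃ ℤ × ℤ where
  toFun j := (j.2.2 - j.2.1, 2 * j.2.1 - if j.1 then 1 else 0)
  invFun v := (decide (v.2 % 2 = 1), ((v.2 + 1) / 2, v.1 + (v.2 + 1) / 2))
  left_inv := by
    rintro ⟨b, n, m⟩
    cases b <;> simp
    omega
  right_inv := by
    rintro ⟨x, y⟩
    by_cases h : y % 2 = 1 <;> simp [h] <;> omega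

/-- The constant of the inversion formula. -/
def hexConst : ℂ := 1 / (2 * ((√(2 * (1 / 4)) : ℝ) : ℂ) * ((√(2 * (3 / 4)) : ℝ) : ℂ) * I)

theorem hexTheta_inv (τ σ ρ : ℍ) (hσ : (σ : ℂ) = -1 / (τ : ℂ)) (hρ : (ρ : ℂ) = (τ : ℂ) / 3) :
    hexTheta σ = hexConst * τ * hexTheta ρ := by
  have hτ : 0 < (τ : ℂ).im := τ.im_pos
  have hσ' : 0 < (-1 / (τ : ℂ)).im := neg_inv_im_pos hτ
  set G : ℝ → ℤ × ℤ → ℂ := fun α k =>
    (cexp (2 * π * I * α * k.1) * gauss1 (1 / 4) (-1 / (τ : ℂ)) (k.1 : ℂ)) *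
      (cexp (2 * π * I * α * k.2) * gauss1 (3 / 4) (-1 / (τ : ℂ)) (k.2 : ℂ)) with hG
  set D : Bool → ℤ × ℤ → ℂ := fun b k =>
    gauss1 (1 / (4 * (1 / 4))) τ ((k.1 : ℂ) - ((if b then 1 / 2 else 0 : ℝ) : ℂ)) *
      gauss1 (1 / (4 * (3 / 4))) τ ((k.2 : ℂ) - ((if b then 1 / 2 else 0 : ℝ) : ℂ)) with hD
  have hGs : ∀ α, Summable fun k => ‖G α k‖ := fun α =>
    Summable.mul_norm (f := fun k : ℤ => cexp (2 * π * I * α * k) * gauss1 _ _ (k : ℂ))
      (g := fun k : ℤ => cexp (2 * π * I * α * k) * gauss1 _ _ (k : ℂ))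
      (by simpa only [norm_twist_gauss1] using summable_norm_gauss1 (by norm_num) hσ')
      (by simpa only [norm_twist_gauss1] using summable_norm_gauss1 (by norm_num) hσ')
  have hinv : ∀ b : Bool, ∑' k, G (if b then 1 / 2 else 0) k =
      invFactor (1 / 4) τ * invFactor (3 / 4) τ * ∑' k, D b k := by
    intro b
    have h1 := hasSum_gauss1_inversion (w := 1 / 4) (by norm_num) (if b then 1 / 2 else 0) hτ
    have h2 := hasSum_gauss1_inversion (w := 3 / 4) (by norm_num) (if b then 1 / 2 else 0) hτ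
    have e := tsum_mul_tsum_of_summable_norm
      (f := fun k : ℤ => cexp (2 * π * I * ((if b then 1 / 2 else 0 : ℝ) : ℂ) * k) *
        gauss1 (1 / 4) (-1 / (τ : ℂ)) (k : ℂ))
      (g := fun k : ℤ => cexp (2 * π * I * ((if b then 1 / 2 else 0 : ℝ) : ℂ) * k) *
        gauss1 (3 / 4) (-1 / (τ : ℂ)) (k : ℂ))
      (by simpa only [norm_twist_gauss1] using summable_norm_gauss1 (by norm_num) hσ')
      (by simpa only [norm_twist_gauss1] using summable_norm_gauss1 (by norm_num) hσ')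
    rw [h1.tsum_eq, h2.tsum_eq, mul_mul_mul_comm, dualSum, dualSum,
      tsum_mul_tsum_of_summable_norm (summable_dual (by norm_num) _ hτ)
        (summable_dual (by norm_num) _ hτ)] at e
    exact e.symm
  -- the left side
  have hleft : hexTheta σ = (1 / 2) * (∑' k, G 0 k + ∑' k, G (1 / 2) k) := by
    rw [← Summable.tsum_add (hGs _).of_norm (hGs _).of_norm, ← tsum_mul_left,
      ← hexCoords_injective.tsum_eq (f := fun k => (1 / 2 : ℂ) * (G 0 k + G (1 / 2) k))]
    · refine tsum_congr fun v => ?_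
      rw [hσ, ← gauss1_hexCoords]
      simp only [hG, hexCoords]
      push_cast
      rw [show 2 * π * I * (1 / 2) * (2 * (v.1 : ℂ) + v.2) =
          (v.1 : ℂ) * (2 * π * I) + π * I * v.2 by ring,
        show 2 * π * I * (1 / 2) * (v.2 : ℂ) = π * I * v.2 by ring, Complex.exp_add,
        Complex.exp_int_mul_two_pi_mul_I]
      have hsq : cexp (π * I * v.2) * cexp (π * I * v.2) = 1 := by
        rw [← Complex.exp_add, show π * I * v.2 + π * I * v.2 = (v.2 : ℂ) * (2 * π * I) by ring,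
          Complex.exp_int_mul_two_pi_mul_I]
      simp only [mul_zero, zero_mul, Complex.exp_zero, one_mul]
      linear_combination (-(1 / 2 : ℂ) * gauss1 (1 / 4) (-1 / (τ : ℂ)) (2 * (v.1 : ℂ) + v.2) *
        gauss1 (3 / 4) (-1 / (τ : ℂ)) (v.2 : ℂ)) * hsq
    · intro k hk
      rw [Function.mem_support] at hk
      by_contra hno
      apply hk
      have hodd : Odd (k.1 + k.2) := by
        rw [← Int.not_even_iff_odd]
        rintro ⟨t, ht⟩
        refine hno ⟨(t - k.2, k.2), ?_⟩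
        simp [hexCoords]
        ext <;> simp
        linarith
      simp only [hG]
      push_cast
      have hm : cexp (2 * π * I * (1 / 2) * (k.1 : ℂ)) * cexp (2 * π * I * (1 / 2) * (k.2 : ℂ)) =
          -1 := by
        rw [← Complex.exp_add, show 2 * π * I * (1 / 2) * (k.1 : ℂ) + 2 * π * I * (1 / 2) * (k.2 : ℂ)
          = ((k.1 + k.2 : ℤ) : ℂ) * (π * I) by push_cast; ring, Complex.exp_int_mul,
          Complex.exp_pi_mul_I, hodd.neg_one_zpow]
      simp only [mul_zero, zero_mul, Complex.exp_zero, one_mul]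
      linear_combination ((1 / 2 : ℂ) * gauss1 (1 / 4) (-1 / (τ : ℂ)) (k.1 : ℂ) *
        gauss1 (3 / 4) (-1 / (τ : ℂ)) (k.2 : ℂ)) * hm
  -- the right side
  have hρ' : 0 < ((τ : ℂ) / 3).im := by rw [← hρ]; exact ρ.im_pos
  have hglue : ∀ j : Bool × (ℤ × ℤ),
      D j.1 j.2 = cexp (2 * π * I * ((τ : ℂ) / 3) * (hexQuad (hexGlue j) : ℂ)) := by
    rintro ⟨b, n, m⟩
    simp only [hD, gauss1, ← Complex.exp_add, hexGlue, hexQuad, Equiv.coe_fn_mk]
    congr 1
    cases b <;> simp <;> ring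
  have hright : hexTheta ρ = ∑' k, D false k + ∑' k, D true k := by
    have hs : Summable fun j : Bool × (ℤ × ℤ) => D j.1 j.2 := by
      simp only [hglue]
      exact (hexGlue.summable_iff (f := fun v => cexp (2 * π * I * ((τ : ℂ) / 3) *
        (hexQuad v : ℂ)))).mpr (summable_hexTerm hρ').of_norm
    rw [hexTheta, hρ, ← hexGlue.tsum_eq, ← tsum_congr hglue, hs.tsum_prod, tsum_fintype,
      Fintype.sum_bool, add_comm]
  rw [hleft, hright]
  have h0 := hinv false
  have h1 := hinv true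
  simp only [Bool.false_eq_true, if_false, if_true] at h0 h1
  rw [h0, h1, ← mul_add, ← mul_assoc]
  congr 1
  have hs2 : (I / (τ : ℂ)) ^ (1 / 2 : ℂ) * (I / (τ : ℂ)) ^ (1 / 2 : ℂ) = I / (τ : ℂ) := by
    rw [← Complex.cpow_add _ _ (div_ne_zero I_ne_zero (ne_zero τ))]
    norm_num
  rw [invFactor, invFactor, ← mul_inv, mul_mul_mul_comm, hs2, hexConst]
  field_simp

/-! ### The equivariant family -/

local notation "TS" => ModularGroup.T
local notation "SS" => ModularGroup.S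

theorem slashS_apply (f : ℍ → ℂ) (τ : ℍ) :
    (f ∣[(1 : ℤ)] SS) τ = f (SS • τ) * (τ : ℂ) ^ (-1 : ℤ) := by
  rw [SlashInvariantForm.slash_S_apply, modular_S_smul]

theorem hexTheta_slash_T : hexTheta ∣[(1 : ℤ)] TS = hexTheta := by
  funext τ
  rw [← zpow_one TS, slash_T_zpow_apply]
  refine tsum_congr fun v => ?_
  rw [UpperHalfPlane.coe_vadd, show 2 * π * I * (((1 : ℤ) : ℝ) + (τ : ℂ)) * (hexQuad v : ℂ) =
      2 * π * I * (τ : ℂ) * (hexQuad v : ℂ) + (hexQuad v : ℂ) * (2 * π * I) by push_cast; ring,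
    Complex.exp_add, Complex.exp_int_mul_two_pi_mul_I, mul_one]

/-- The theta series at `τ / 3`, rescaled. -/
def hexAtZero (τ : ℍ) : ℂ := hexConst * hexTheta ⟨(τ : ℂ) / 3, by simp [τ.im_pos]⟩

theorem hexTheta_slash_S : hexTheta ∣[(1 : ℤ)] SS = hexAtZero := by
  funext τ
  rw [slashS_apply, hexTheta_inv τ _ ⟨(τ : ℂ) / 3, by simp [τ.im_pos]⟩
    (by rw [modular_S_smul, UpperHalfPlane.coe_mk, inv_neg, neg_div, one_div]) rfl, hexAtZero, zpow_neg, zpow_one]
  field_simp [ne_zero τ]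

theorem hasQ_hexAtZero : HasQ 3 hexAtZero (hexConst • hexSeries) := by
  have h := hasQ_hexTheta.comp_div (m := 3) three_ne_zero
    (g := fun τ : ℍ => hexTheta ⟨(τ : ℂ) / 3, by simp [τ.im_pos]⟩)
    (fun τ σ e => by congr 1; ext; simpa using e.symm)
  exact HasQ.smul hexConst h

theorem hexAtZero_slash_T3 : hexAtZero ∣[(1 : ℤ)] (TS ^ (3 : ℤ)) = hexAtZero := by
  funext τ
  rw [slash_T_zpow_apply, hexAtZero, hexAtZero]
  congr 1
  have h := congrFun hexTheta_slash_T ⟨(τ : ℂ) / 3, by simp [τ.im_pos]⟩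
  rw [← zpow_one TS, slash_T_zpow_apply] at h
  rw [← h]
  congr 1
  ext
  simp only [UpperHalfPlane.coe_vadd]
  push_cast
  ring

/-- The translates of `θ | S`. -/
def hexPow (i : ZMod 3) : ℍ → ℂ := hexTheta ∣[(1 : ℤ)] (SS * TS ^ (i.val : ℤ))

/-- The family indexed by row vectors modulo `3`. -/
def hexFam (v : ZMod 3 × ZMod 3) : ℍ → ℂ :=
  if v.1 = 0 then (if v.2 = 1 then hexTheta else if v.2 = 2 then -hexTheta else 0)
  else if v.1 = 1 then hexPow v.2 else -hexPow (-v.2)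

theorem zmod3_cases : ∀ x : ZMod 3, x = 0 ∨ x = 1 ∨ x = 2 := by decide

theorem hexFam_one_left (i : ZMod 3) : hexFam (1, i) = hexPow i := by
  simp only [hexFam, if_neg (by decide : (1 : ZMod 3) ≠ 0), if_true]

theorem hexFam_two_left (i : ZMod 3) : hexFam (2, i) = -hexPow (-i) := by
  simp only [hexFam, if_neg (by decide : (2 : ZMod 3) ≠ 0), if_neg (by decide : (2 : ZMod 3) ≠ 1)]

theorem hexFam_zero_zero : hexFam (0, 0) = 0 := by
  simp only [hexFam, if_true, if_neg (by decide : (0 : ZMod 3) ≠ 1),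
    if_neg (by decide : (0 : ZMod 3) ≠ 2)]

theorem hexFam_zero_one : hexFam (0, 1) = hexTheta := by simp only [hexFam, if_true]

theorem hexFam_zero_two : hexFam (0, 2) = -hexTheta := by
  simp only [hexFam, if_true, if_neg (by decide : (2 : ZMod 3) ≠ 1)]

/-- Right multiplication of row vectors. -/
def rowAct (v : ZMod 3 × ZMod 3) (γ : SL(2, ℤ)) : ZMod 3 × ZMod 3 :=
  (v.1 * (γ 0 0 : ZMod 3) + v.2 * (γ 1 0 : ZMod 3), v.1 * (γ 0 1 : ZMod 3) + v.2 * (γ 1 1 : ZMod 3))

theorem rowAct_one (v : ZMod 3 × ZMod 3) : rowAct v 1 = v := by simp [rowAct]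

theorem rowAct_mul (v : ZMod 3 × ZMod 3) (g h : SL(2, ℤ)) :
    rowAct v (g * h) = rowAct (rowAct v g) h := by
  simp [rowAct, Matrix.mul_apply, Fin.sum_univ_two]
  constructor <;> ring

theorem hexTheta_slash_neg_one : hexTheta ∣[(1 : ℤ)] (-1 : SL(2, ℤ)) = -hexTheta := by
  funext τ
  rw [ModularForm.SL_slash_apply]
  simp [denom]

theorem hexTheta_slash_S_T (i : ℤ) :
    hexTheta ∣[(1 : ℤ)] (SS * TS ^ (i + 3)) = hexTheta ∣[(1 : ℤ)] (SS * TS ^ i) := by
  rw [show SS * TS ^ (i + 3) = SS * TS ^ (3 : ℤ) * TS ^ i by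
      rw [mul_assoc, ← zpow_add, add_comm], SlashAction.slash_mul, SlashAction.slash_mul,
    hexTheta_slash_S, hexAtZero_slash_T3, ← hexTheta_slash_S, ← SlashAction.slash_mul]

theorem slash_neg_mul (g : SL(2, ℤ)) :
    hexTheta ∣[(1 : ℤ)] (-g) = -(hexTheta ∣[(1 : ℤ)] g) := by
  rw [← neg_one_mul g, SlashAction.slash_mul, hexTheta_slash_neg_one, SlashAction.neg_slash]

theorem rowAct_T (v : ZMod 3 × ZMod 3) : rowAct v TS = (v.1, v.1 + v.2) := by
  simp [rowAct, ModularGroup.coe_T]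

theorem rowAct_S (v : ZMod 3 × ZMod 3) : rowAct v SS = (v.2, -v.1) := by
  simp [rowAct, ModularGroup.coe_S]

theorem hexPow_slash_T (i : ZMod 3) : (hexPow i) ∣[(1 : ℤ)] TS = hexPow (1 + i) := by
  have h3 := hexTheta_slash_S_T 0
  simp only [zero_add] at h3
  rw [hexPow, hexPow, ← SlashAction.slash_mul, mul_assoc]
  rw [show (TS ^ (i.val : ℤ)) * TS = TS ^ ((i.val : ℤ) + 1) by rw [zpow_add_one]]
  rcases zmod3_cases i with rfl | rfl | rfl
  · rfl
  · rfl
  · exact h3

theorem hexFam_slash_T (v : ZMod 3 × ZMod 3) :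
    (hexFam v) ∣[(1 : ℤ)] TS = hexFam (rowAct v TS) := by
  obtain ⟨c, d⟩ := v
  rw [rowAct_T]
  rcases zmod3_cases c with rfl | rfl | rfl
  · rw [zero_add]
    rcases zmod3_cases d with rfl | rfl | rfl
    · rw [hexFam_zero_zero, SlashAction.zero_slash]
    · rw [hexFam_zero_one, hexTheta_slash_T]
    · rw [hexFam_zero_two, SlashAction.neg_slash, hexTheta_slash_T]
  · rw [hexFam_one_left, hexFam_one_left, hexPow_slash_T]
  · rw [hexFam_two_left, hexFam_two_left, SlashAction.neg_slash, hexPow_slash_T]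
    congr 2
    revert d
    decide

theorem hexFam_slash_S (v : ZMod 3 × ZMod 3) :
    (hexFam v) ∣[(1 : ℤ)] SS = hexFam (rowAct v SS) := by
  have r0 : SS * SS = -1 := by decide
  have r1 : SS * TS * SS = TS⁻¹ * SS * TS⁻¹ := by decide
  have r2 : SS * TS⁻¹ * SS = -(TS * SS * TS) := by decide
  have hT' : hexTheta ∣[(1 : ℤ)] TS⁻¹ = hexTheta := by
    conv_lhs => rw [← hexTheta_slash_T, ← SlashAction.slash_mul, mul_inv_cancel,
      SlashAction.slash_one]
  have q : hexTheta ∣[(1 : ℤ)] SS = hexPow 0 := by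
    rw [hexPow, show ((0 : ZMod 3).val : ℤ) = 0 from rfl, zpow_zero, mul_one]
  have p2 : hexPow 2 = hexTheta ∣[(1 : ℤ)] (SS * TS⁻¹) := by
    rw [hexPow, show ((2 : ZMod 3).val : ℤ) = -1 + 3 from rfl, hexTheta_slash_S_T, zpow_neg_one]
  have p1 : hexPow 1 = hexTheta ∣[(1 : ℤ)] (SS * TS) := by
    rw [hexPow, show ((1 : ZMod 3).val : ℤ) = 1 from rfl, zpow_one]
  have e0 : (hexPow 0) ∣[(1 : ℤ)] SS = -hexTheta := by
    rw [← q, ← SlashAction.slash_mul, r0, hexTheta_slash_neg_one]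
  have e1 : (hexPow 1) ∣[(1 : ℤ)] SS = hexPow 2 := by
    rw [p1, p2, ← SlashAction.slash_mul, r1, mul_assoc, SlashAction.slash_mul, hT']
  have e2 : (hexPow 2) ∣[(1 : ℤ)] SS = -hexPow 1 := by
    rw [p1, p2, ← SlashAction.slash_mul, r2, slash_neg_mul, mul_assoc, SlashAction.slash_mul,
      hexTheta_slash_T]
  have n2 : (-2 : ZMod 3) = 1 := rfl
  have n1 : (-1 : ZMod 3) = 2 := rfl
  obtain ⟨c, d⟩ := v
  rw [rowAct_S]
  rcases zmod3_cases c with rfl | rfl | rfl <;> rcases zmod3_cases d with rfl | rfl | rfl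
  all_goals simp only [neg_zero, n1, n2, hexFam_one_left, hexFam_two_left, hexFam_zero_zero,
    hexFam_zero_one, hexFam_zero_two, SlashAction.neg_slash, SlashAction.zero_slash, q, e0, e1,
    e2, neg_neg]

theorem hexFam_slash (γ : SL(2, ℤ)) :
    ∀ v, hexFam v ∣[(1 : ℤ)] γ = hexFam (rowAct v γ) := by
  have hγ : γ ∈ Subgroup.closure {SS, TS} := by simp [SpecialLinearGroup.SL2Z_generators]
  induction hγ using Subgroup.closure_induction with
  | mem g hg =>
    simp only [Set.mem_insert_iff, Set.mem_singleton_iff] at hg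
    rcases hg with rfl | rfl
    · exact hexFam_slash_S
    · exact hexFam_slash_T
  | one => intro v; rw [SlashAction.slash_one, rowAct_one]
  | mul g h _ _ ihg ihh => intro v; rw [SlashAction.slash_mul, ihg, ihh, rowAct_mul]
  | inv g _ ih =>
    intro v
    have h1 := ih (rowAct v g⁻¹)
    rw [← rowAct_mul, inv_mul_cancel, rowAct_one] at h1
    rw [← h1, ← SlashAction.slash_mul, mul_inv_cancel, SlashAction.slash_one]

theorem exists_hasQ_hexFam (v : ZMod 3 × ZMod 3) :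
    ∃ P : PowerSeries ℂ, HasQ 3 (hexFam v) P := by
  have h0 : ∃ P, HasQ 3 hexTheta P := ⟨_, hasQ_hexTheta.scale three_ne_zero⟩
  have h1 : ∀ i : ℤ, ∃ P, HasQ 3 (hexTheta ∣[(1 : ℤ)] (SS * TS ^ i)) P := fun i => by
    refine ⟨_, (hasQ_hexAtZero.translate i).congr fun τ => ?_⟩
    rw [SlashAction.slash_mul, hexTheta_slash_S, slash_T_zpow_apply]
  obtain ⟨P, hP⟩ := h0
  obtain ⟨Q, hQ⟩ := h1 v.2.val
  obtain ⟨R, hR⟩ := h1 (-v.2).val
  simp only [hexFam, hexPow]
  split_ifs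
  exacts [⟨P, hP⟩, ⟨_, hP.neg⟩, ⟨_, HasQ.zero 3⟩, ⟨Q, hQ⟩, ⟨_, hR.neg⟩]

/-- `θ` has character `χ₋₃` on `Γ₀(3)`. -/
theorem hexTheta_slash {γ : SL(2, ℤ)} (hγ : γ ∈ Gamma0 3) :
    hexTheta ∣[(1 : ℤ)] γ = (chiNegThree ((γ 1 1 : ZMod 3).val) : ℂ) • hexTheta := by
  have h := hexFam_slash γ (0, 1)
  have hc : (γ 1 0 : ZMod 3) = 0 := Gamma0_mem.mp hγ
  have hd : (γ 1 1 : ZMod 3) ≠ 0 := by
    intro h0
    have hdet := congrArg (fun z : ℤ => (z : ZMod 3)) γ.det_coe
    rw [Matrix.det_fin_two] at hdet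
    simp [h0, hc] at hdet
  rw [hexFam_zero_one] at h
  rw [h, rowAct, hc]
  generalize (γ 1 1 : ZMod 3) = d at hd
  simp only [zero_mul, one_mul, zero_add]
  rcases zmod3_cases d with rfl | rfl | rfl
  · exact absurd rfl hd
  · rw [hexFam_zero_one, show chiNegThree ((1 : ZMod 3).val) = 1 from rfl, Int.cast_one, one_smul]
  · rw [hexFam_zero_two, show chiNegThree ((2 : ZMod 3).val) = -1 from rfl, Int.cast_neg,
      Int.cast_one, neg_one_smul]

/-- The slashed hexagonal theta function is bounded at infinity. -/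
theorem isBoundedAtImInfty_hexTheta_slash (γ : SL(2, ℤ)) :
    IsBoundedAtImInfty (hexTheta ∣[(1 : ℤ)] γ) := by
  obtain ⟨P, hP⟩ := exists_hasQ_hexFam (rowAct (0, 1) γ)
  rw [← hexFam_zero_one, hexFam_slash]
  exact hP.isBoundedAtImInfty

end Fermat.Agent.LT.Final

end
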