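import Fermat.Prelude.Def_FLTPrelim_ModularRep
import Fermat.Agent.LTReduce.S46Reduction
import Fermat.Agent.HeckeLift.Basic
import Fermat.Agent.S23
import Fermat.Agent.S49
import Fermat.Agent.LT.Final.Eigensystem
import Fermat.Agent.LT.Final.Theta

/-!
# From weight one to a weight two eigen-expansion modulo `3`

Multiply by the hexagonal theta series, which is `1` modulo `3`, and apply a real linear functional
to the coordinates in an integral basis to land in integral forms.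
-/

set_option autoImplicit false

noncomputable section

open CongruenceSubgroup Matrix.SpecialLinearGroup EisensteinWeightOne ModularFormClass
open UpperHalfPlane hiding I
open WeierstrassCurve
open Fermat.Agent.GaloisBasics (Qbar GalQ)
open Fermat.Agent.Eisenstein (HasQ)
open scoped MatrixGroups ModularForm

namespace Fermat.Agent.LT.Final

/-- Applying a real linear map to the coefficients of a form. -/
theorem exists_map_qCoeff (M : ℕ) [NeZero M] (g : CuspForm (Gamma0 M) 2) (φ : ℂ →ₗ[ℝ] ℂ) :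
    ∃ g' : CuspForm (Gamma0 M) 2, ∀ n, qCoeff g' n = φ (qCoeff g n) := by
  have hg : g ∈ Submodule.span ℂ ((CuspForm.intLattice M 2 : Submodule ℤ _) :
      Set (CuspForm (Gamma0 M) 2)) := by
    rw [show Submodule.span ℂ _ = ⊤ from Fermat.Agent.S23.result M]
    exact Submodule.mem_top
  revert φ
  refine Submodule.span_induction (p := fun (g : CuspForm (Gamma0 M) 2) _ => ∀ φ : ℂ →ₗ[ℝ] ℂ,
    ∃ g' : CuspForm (Gamma0 M) 2, ∀ n, qCoeff g' n = φ (qCoeff g n)) ?_ ?_ ?_ ?_ hg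
  · intro x hx φ
    refine ⟨φ 1 • x, fun n => ?_⟩
    obtain ⟨m, hm⟩ := HeckeLift.exists_int_qCoeff_of_mem_intLattice hx n
    rw [HeckeLift.qCoeff_smul, hm, show ((m : ℂ)) = (m : ℝ) • (1 : ℂ) by simp, map_smul]
    simp [mul_comm]
  · intro φ
    exact ⟨0, fun n => by rw [HeckeLift.qCoeff_zero, map_zero]⟩
  · intro x y _ _ hx hy φ
    obtain ⟨x', hx'⟩ := hx φ
    obtain ⟨y', hy'⟩ := hy φ
    exact ⟨x' + y', fun n => by
      rw [HeckeLift.qCoeff_add, HeckeLift.qCoeff_add, hx', hy', map_add]⟩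
  · intro z x _ hx φ
    obtain ⟨x', hx'⟩ := hx (φ.comp (LinearMap.mulLeft ℝ z))
    exact ⟨x', fun n => by rw [HeckeLift.qCoeff_smul, hx']; rfl⟩

/-- A real linear map sending `ι z` to an integer congruent to `red z`. -/
theorem exists_functional (ι : ℤ√(-2) →+* ℂ) : ∃ φ : ℂ →ₗ[ℝ] ℂ, ∀ z : ℤ√(-2),
    ∃ m : ℤ, φ (ι z) = (m : ℂ) ∧ (m : ZMod 3) = FLT.ExplicitLift.red z := by
  set w := ι Zsqrtd.sqrtd with hw
  have hw2 : w * w = -2 := by
    rw [hw, ← map_mul, Zsqrtd.dmuld, map_intCast]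
    simp
  have hre : w.re = 0 ∧ w.im ≠ 0 := by
    have h1 := congrArg Complex.re hw2
    have h2 := congrArg Complex.im hw2
    simp at h1 h2
    refine ⟨by nlinarith [mul_self_nonneg w.re, mul_self_nonneg w.im], fun h => ?_⟩
    rw [h, mul_zero, sub_zero] at h1
    nlinarith [mul_self_nonneg w.re]
  refine ⟨{ toFun := fun x => ((x.re - x.im / w.im : ℝ) : ℂ), map_add' := fun x y => ?_,
            map_smul' := fun r x => ?_ }, fun z => ⟨z.re - z.im, ?_, ?_⟩⟩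
  · simp; ring
  · simp; ring
  · have hz : ι z = (z.re : ℂ) + w * (z.im : ℂ) := by
      rw [hw, show z = (z.re : ℤ√(-2)) + Zsqrtd.sqrtd * (z.im : ℤ√(-2)) from by
        ext <;> simp, map_add, map_mul, map_intCast, map_intCast]
      simp
    simp only [LinearMap.coe_mk, AddHom.coe_mk, hz]
    simp [hre.1, hre.2]
  · rw [FLT.ExplicitLift.red, Zsqrtd.lift_apply_apply]
    push_cast
    ring

/-- The coefficient ring series of the theta series. -/
def hexSeriesZ : PowerSeries (ℤ√(-2)) := PowerSeries.mk fun n => ((hexReps n).card : ℤ√(-2))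

theorem map_red_hexSeriesZ : PowerSeries.map FLT.ExplicitLift.red hexSeriesZ = 1 := by
  ext n
  rw [PowerSeries.coeff_map, hexSeriesZ, PowerSeries.coeff_mk, map_natCast, PowerSeries.coeff_one]
  split_ifs with h
  · subst h; simp [hexReps_zero]
  · exact (ZMod.natCast_eq_zero_iff _ 3).mpr (three_dvd_card_hexReps h)

theorem map_hexSeriesZ (ι : ℤ√(-2) →+* ℂ) : PowerSeries.map ι hexSeriesZ = hexSeries := by
  ext n
  simp [hexSeriesZ, hexSeries]

/-- The product with the theta series. -/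
theorem exists_mul_hexTheta {M : ℕ} [NeZero M] (h3 : 3 ∣ M) (F : CuspForm (Gamma1 M) 1)
    (hF : IsChiInvariant M F) (ι : ℤ√(-2) →+* ℂ) (b : ℕ → ℤ√(-2))
    (hq : ∀ n, qCoeff F n = ι (b n)) :
    ∃ g : CuspForm (Gamma0 M) 2, ∀ n,
      qCoeff g n = ι (PowerSeries.coeff n (PowerSeries.mk b * hexSeriesZ)) := by
  have hP : qExpansion 1 (⇑F) = PowerSeries.map ι (PowerSeries.mk b) := by
    ext n
    rw [PowerSeries.coeff_map, PowerSeries.coeff_mk, ← hq n]
    rfl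
  have hQ : HasQ 1 (⇑F * hexTheta) (PowerSeries.map ι (PowerSeries.mk b * hexSeriesZ)) := by
    rw [map_mul, ← hP, map_hexSeriesZ]
    exact (hasQ_qExpansion_Gamma1 F).mul hasQ_hexTheta
  have hinv : ∀ γ : SL(2, ℤ), γ ∈ Gamma0 M → (⇑F * hexTheta) ∣[(2 : ℤ)] γ = ⇑F * hexTheta := by
    intro γ hγ
    have hγ3 : γ ∈ Gamma0 3 := by
      rw [Gamma0_mem] at hγ ⊢
      simpa using congrArg (ZMod.castHom h3 (ZMod 3)) hγ
    rw [show (2 : ℤ) = 1 + 1 from rfl, ModularForm.mul_slash_SL2, hF γ hγ, hexTheta_slash hγ3,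
      smul_mul_smul_comm]
    have hd : ((γ 1 1 : ℤ) : ZMod 3) ≠ 0 := by
      intro h0
      have hdet := congrArg (fun z : ℤ => (z : ZMod 3)) γ.det_coe
      rw [Matrix.det_fin_two] at hdet
      simp [h0, Gamma0_mem.mp hγ3] at hdet
    have hsq : chiInt (γ 1 1) * chiNegThree ((γ 1 1 : ZMod 3).val) = 1 := by
      rw [chiInt]
      generalize ((γ 1 1 : ℤ) : ZMod 3) = d at hd
      revert hd; revert d; decide
    rw [show (chiInt (γ 1 1) : ℂ) * (chiNegThree ((γ 1 1 : ZMod 3).val) : ℂ) = 1 by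
      exact_mod_cast hsq, one_smul]
  have hzero : ∀ δ : SL(2, ℤ), IsZeroAtImInfty ((⇑F * hexTheta) ∣[(2 : ℤ)] δ) := by
    intro δ
    rw [show (2 : ℤ) = 1 + 1 from rfl, ModularForm.mul_slash_SL2]
    refine Filter.ZeroAtFilter.mul_boundedAtFilter ?_ (isBoundedAtImInfty_hexTheta_slash δ)
    change IsZeroAtImInfty (⇑F ∣[(1 : ℤ)] δ)
    rw [← OnePoint.isZeroAt_infty_iff]
    change OnePoint.IsZeroAt OnePoint.infty (⇑F ∣[(1 : ℤ)] (mapGL ℝ δ : GL (Fin 2) ℝ)) 1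
    rw [← OnePoint.IsZeroAt.smul_iff]
    refine CuspFormClass.zero_at_cusps F ?_
    rw [Subgroup.IsArithmetic.isCusp_iff_isCusp_SL2Z, isCusp_SL2Z_iff']
    exact ⟨δ, rfl⟩
  let g : CuspForm (Gamma0 M) 2 :=
    { toFun := ⇑F * hexTheta
      slash_action_eq' := fun A hA => by
        obtain ⟨γ, hγ, rfl⟩ := Subgroup.mem_map.mp hA
        exact hinv γ hγ
      holo' := hQ.mdifferentiable
      zero_at_cusps' := fun {x} hx => by
        rw [Subgroup.IsArithmetic.isCusp_iff_isCusp_SL2Z] at hx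
        rw [OnePoint.isZeroAt_iff_forall_SL2Z hx]
        exact fun δ _ => hzero δ }
  exact ⟨g, fun n => (qCoeff_eq_of_hasQ hQ n).trans (PowerSeries.coeff_map _ _ _)⟩

variable {W : WeierstrassCurve ℤ} {ρ : GalQ →* GF3}
  {Ψ : GF3 →* GL (Fin 2) (ℤ√(-2))} {N : ℕ}

/-- **Weight two.** `htr` says that `ρ` is the mod-3 representation of `W` as far as traces of
Frobenius are concerned. -/
theorem exists_modThreeEigenExpansion (h48 : DeligneSerreWeightOne) (hρ : Continuous ρ)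
    (hsurj : Function.Surjective ρ)
    (hdet : ∀ σ, Matrix.GeneralLinearGroup.det (ρ σ) = modThreeCyclotomicChar σ)
    (hΨ : ∀ g, Matrix.GeneralLinearGroup.map FLT.ExplicitLift.red (Ψ g) = g)
    (htr : ∀ ℓ : ℕ, ℓ.Prime → W.IsGoodPrimeFor ℓ → ℓ ≠ 3 →
      ∀ A : ValuationSubring Qbar, A.LiesOverPrime ℓ → ∀ σ : GalQ, A.IsFrobeniusAt σ ℓ →
        (ρ σ : Matrix (Fin 2) (Fin 2) (ZMod 3)).trace = (W.apOfModel ℓ : ZMod 3))
    (hdata : HasSplitWeightOneForm ρ Ψ N) :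
    ∃ (b : ℕ → ZMod 3) (f : CuspForm (Gamma0 (finalLevel N)) 2), b 0 = 0 ∧
      FormalHecke.IsEigensystem (fun ℓ => if ℓ ∣ finalLevel N then 0 else (ℓ : ZMod 3)) b ∧
      (∀ n, ∃ m : ℤ, qCoeff f n = (m : ℂ) ∧ (m : ZMod 3) = b n) ∧
      ∀ ℓ : ℕ, ℓ.Prime → W.IsGoodPrimeFor ℓ → ¬ ℓ ∣ finalLevel N → ℓ ≠ 3 →
        b ℓ = (W.apOfModel ℓ : ZMod 3) := by
  have : NeZero (finalLevel N) := ⟨(finalLevel_pos hdata.1).ne'⟩
  obtain ⟨ι, b, F, hF, hb0, heig, hq, htrace⟩ :=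
    exists_weightOne_eigensystem h48 hρ hsurj hdet hΨ hdata
  obtain ⟨g, hg⟩ := exists_mul_hexTheta ((dvd_pow_self 3 two_ne_zero).trans (nine_dvd_finalLevel N))
    F hF ι b hq
  obtain ⟨φ, hφ⟩ := exists_functional ι
  obtain ⟨g', hg'⟩ := exists_map_qCoeff _ g φ
  refine ⟨fun n => FLT.ExplicitLift.red (b n), g', by simp only [hb0, map_zero], ⟨?_, ?_⟩,
    fun n => ?_, ?_⟩
  · simp only [heig.1, map_one]
  · intro p hp n
    have h := congrArg FLT.ExplicitLift.red (heig.2 p hp n)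
    simp only [map_add, map_mul, apply_ite FLT.ExplicitLift.red, map_zero, map_intCast,
      LTReduce.chiNegThree_zmod3] at h
    exact h
  · obtain ⟨m, hm, hmr⟩ := hφ (PowerSeries.coeff n (PowerSeries.mk b * hexSeriesZ))
    refine ⟨m, by rw [hg', hg, hm], ?_⟩
    rw [hmr, ← PowerSeries.coeff_map, map_mul, map_red_hexSeriesZ, mul_one,
      PowerSeries.coeff_map, PowerSeries.coeff_mk]
  · intro ℓ hℓ hgood hℓM h3
    obtain ⟨A, hA⟩ := GaloisBasics.exists_liesOverPrime hℓ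
    obtain ⟨σ, hσ⟩ := GaloisBasics.exists_isFrobeniusAt hA hℓ
    simp only
    rw [← htr ℓ hℓ hgood h3 A hA σ hσ, htrace ℓ hℓ hℓM A hA σ hσ,
      AddMonoidHom.map_trace FLT.ExplicitLift.red]
    exact congrArg Matrix.trace (congrArg Units.val (hΨ (ρ σ)))

/-- Residual modularity at `3` at level `finalLevel N`. -/
theorem isResiduallyModularOfLevel (h48 : DeligneSerreWeightOne) (hρ : Continuous ρ)
    (hsurj : Function.Surjective ρ)
    (hdet : ∀ σ, Matrix.GeneralLinearGroup.det (ρ σ) = modThreeCyclotomicChar σ)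
    (hΨ : ∀ g, Matrix.GeneralLinearGroup.map FLT.ExplicitLift.red (Ψ g) = g)
    (htr : ∀ ℓ : ℕ, ℓ.Prime → W.IsGoodPrimeFor ℓ → ℓ ≠ 3 →
      ∀ A : ValuationSubring Qbar, A.LiesOverPrime ℓ → ∀ σ : GalQ, A.IsFrobeniusAt σ ℓ →
        (ρ σ : Matrix (Fin 2) (Fin 2) (ZMod 3)).trace = (W.apOfModel ℓ : ZMod 3))
    (hdata : HasSplitWeightOneForm ρ Ψ N) :
    W.IsResiduallyModularOfLevel 3 (finalLevel N) := by
  have : NeZero (finalLevel N) := ⟨(finalLevel_pos hdata.1).ne'⟩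
  obtain ⟨b, g, h0, h1, h2, h3⟩ :=
    exists_modThreeEigenExpansion h48 hρ hsurj hdet hΨ htr hdata
  obtain ⟨a, ha, hreal, hab⟩ := LTReduce.exists_eigensystem_of_zmod3 b h0 h1 g h2
  obtain ⟨f, hf, 𝔪, hmax, h3m, hcong⟩ := Fermat.Agent.S49.result
    (LTReduce.hasIntegralBasis_of_hasIntegralStructure (Fermat.Agent.S23.result _)) ha hreal
  refine ⟨f, 𝔪, hf, hmax, by exact_mod_cast h3m, fun ℓ hℓ hgood hℓM hℓ3 => ?_⟩
  obtain ⟨c, hc, hcm⟩ := hcong ℓ hℓ hℓM
  refine ⟨c, hc, ?_⟩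
  have h : (a ℓ : ZMod 3) = (W.apOfModel ℓ : ZMod 3) := (hab ℓ).trans (h3 ℓ hℓ hgood hℓM hℓ3)
  obtain ⟨t, ht⟩ : (3 : ℤ) ∣ a ℓ - W.apOfModel ℓ := by
    exact_mod_cast (ZMod.intCast_eq_intCast_iff_dvd_sub _ _ 3).1 h.symm
  have e : c - ((W.apOfModel ℓ : ℤ) : integralClosure ℤ ℂ) =
      (c - (a ℓ : integralClosure ℤ ℂ)) + ((3 : ℕ) : integralClosure ℤ ℂ) * (t : integralClosure ℤ ℂ) := by
    rw [eq_add_of_sub_eq ht]
    push_cast
    ring
  rw [e]
  exact Ideal.add_mem _ hcm (Ideal.mul_mem_right _ _ h3m)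

end Fermat.Agent.LT.Final

end
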